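import Mathlib

/-!
# S18 / node_alg, wiring piece (C) CONSTANTS, abstract part (helper94), Mathlib-only

* `mem_range_algebraMap_of_isAlgebraic_of_prime` : `K/F` of prime degree, `E ⊆ F`, `Ω ⊇ F` a field
  in which every polynomial over `E` splits, and NO `F`-embedding `K → Ω`.  Then every element of
  `K` algebraic over `E` lies in `F`.  (In the application `K = F(u^{1/m})`, `Ω = F·Lc`: the
  Kummer extension has no new constants as soon as `u` is not an `m`-th power in `Ω`.)
* `isEmpty_algHom_adjoinRoot_pow_sub_C` : no `F`-embedding `F[X]/(X^m - u) → Ω` if `u` is not an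
  `m`-th power in `Ω`.
* `finrank_adjoinRoot_pow_sub_C` : `[F[X]/(X^m - u) : F] = m`.
* `mem_of_isIntegral_of_inv_mem` : an element integral over a subring `R` whose inverse lies in `R`
  lies in `R` (valuation rings are integrally closed, elementwise).
-/

set_option autoImplicit false
set_option linter.style.haveILetI false

namespace Fermat.Agent.S18.H94

open Polynomial IntermediateField

section NoNewConstants

variable {E F K Ω : Type*} [Field E] [Field F] [Field K] [Field Ω]
  [Algebra E F] [Algebra F K] [Algebra E K] [IsScalarTower E F K]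
  [Algebra F Ω] [Algebra E Ω] [IsScalarTower E F Ω]

/-- **No new constants in an extension of prime degree which does not embed into `Ω`.** -/
theorem mem_range_algebraMap_of_isAlgebraic_of_prime
    (hsplit : ∀ g : E[X], (g.map (algebraMap E Ω)).Splits)
    (hprime : (Module.finrank F K).Prime)
    (hno : IsEmpty (K →ₐ[F] Ω))
    {α : K} (hα : IsAlgebraic E α) : α ∈ Set.range (algebraMap F K) := by
  haveI : FiniteDimensional F K := Module.finite_of_finrank_pos hprime.pos
  haveI := IntermediateField.isSimpleOrder_of_finrank_prime F K hprime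
  rcases eq_bot_or_eq_top F⟮α⟯ with h | h
  · have : α ∈ (⊥ : IntermediateField F K) := adjoin_simple_eq_bot_iff.mp h
    exact IntermediateField.mem_bot.mp this
  · exfalso
    have hαE : IsIntegral E α := hα.isIntegral
    have hαint : IsIntegral F α := hαE.tower_top
    have hsp : ((minpoly F α).map (algebraMap F Ω)).Splits := by
      have hdvd := minpoly.dvd_map_of_isScalarTower E F α
      have h1 : (((minpoly E α).map (algebraMap E F)).map (algebraMap F Ω)).Splits := by
        rw [Polynomial.map_map, ← IsScalarTower.algebraMap_eq]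
        exact hsplit _
      refine h1.of_dvd ?_ (Polynomial.map_dvd _ hdvd)
      exact (Polynomial.map_ne_zero (Polynomial.map_ne_zero (minpoly.ne_zero hαE)))
    obtain ⟨φ⟩ := nonempty_algHom_of_adjoin_splits (S := {α}) (K := Ω) (fun s hs => by
      rw [Set.mem_singleton_iff] at hs
      subst hs
      exact ⟨hαint, hsp⟩) h
    exact hno.false φ

end NoNewConstants

section AdjoinRoot

variable {F Ω : Type*} [Field F] [Field Ω] [Algebra F Ω]

/-- No `F`-embedding of `F[X]/(X^m - u)` into `Ω` if `u` is not an `m`-th power in `Ω`. -/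
theorem isEmpty_algHom_adjoinRoot_pow_sub_C (m : ℕ) (u : F)
    (hno : ∀ y : Ω, y ^ m ≠ algebraMap F Ω u) :
    IsEmpty (AdjoinRoot (X ^ m - C u : F[X]) →ₐ[F] Ω) := by
  refine ⟨fun φ => hno (φ (AdjoinRoot.root _)) ?_⟩
  have h : (AdjoinRoot.root (X ^ m - C u : F[X])) ^ m
      = algebraMap F (AdjoinRoot (X ^ m - C u : F[X])) u := by
    have h0 := AdjoinRoot.eval₂_root (X ^ m - C u : F[X])
    rw [eval₂_sub, eval₂_pow, eval₂_X, eval₂_C, sub_eq_zero] at h0
    exact h0
  rw [← map_pow, h, AlgHom.commutes]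

/-- `[F[X]/(X^m - u) : F] = m`. -/
theorem finrank_adjoinRoot_pow_sub_C {m : ℕ} (hm : m ≠ 0) (u : F) :
    Module.finrank F (AdjoinRoot (X ^ m - C u : F[X])) = m := by
  have hne : (X ^ m - C u : F[X]) ≠ 0 := X_pow_sub_C_ne_zero (Nat.pos_of_ne_zero hm) u
  rw [(AdjoinRoot.powerBasis hne).finrank, AdjoinRoot.powerBasis_dim, natDegree_X_pow_sub_C]

end AdjoinRoot

section Total

variable {Ω : Type*} [Field Ω]

/-- An element integral over a subring `R` whose inverse lies in `R` lies in `R`. -/
theorem mem_of_isIntegral_of_inv_mem (R : Subring Ω) {e : Ω} (hint : IsIntegral R e)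
    (hinv : e⁻¹ ∈ R) : e ∈ R := by
  by_cases he : e = 0
  · rw [he]; exact R.zero_mem
  obtain ⟨P, hP, hPe⟩ := hint
  have hsum := hP.as_sum
  set n := P.natDegree with hn
  have hn0 : n ≠ 0 := by
    intro h0
    have h1 : P = 1 := by
      rw [hsum, h0]
      simp
    rw [h1] at hPe
    simp at hPe
  rw [hsum] at hPe
  simp only [eval₂_add, eval₂_pow, eval₂_X, eval₂_finsetSum, eval₂_mul, eval₂_C] at hPe
  -- `e ^ n = - ∑ i < n, a i * e ^ i`
  have h1 : e ^ n = - ∑ i ∈ Finset.range n, algebraMap R Ω (P.coeff i) * e ^ i :=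
    eq_neg_of_add_eq_zero_left hPe
  have h2 : e = - ∑ i ∈ Finset.range n, algebraMap R Ω (P.coeff i) * (e⁻¹) ^ (n - 1 - i) := by
    have h3 : e = e ^ n * (e⁻¹) ^ (n - 1) := by
      obtain ⟨k, hk⟩ := Nat.exists_eq_succ_of_ne_zero hn0
      rw [hk, Nat.succ_sub_one, pow_succ', inv_pow, mul_assoc,
        mul_inv_cancel₀ (pow_ne_zero _ he), mul_one]
    conv_lhs => rw [h3, h1]
    rw [neg_mul, Finset.sum_mul]
    congr 1
    refine Finset.sum_congr rfl (fun i hi => ?_)
    have hi' : i ≤ n - 1 := Nat.le_pred_of_lt (Finset.mem_range.mp hi)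
    have : (e⁻¹) ^ (n - 1) = (e⁻¹) ^ i * (e⁻¹) ^ (n - 1 - i) := by
      rw [← pow_add, Nat.add_sub_cancel' hi']
    rw [this, mul_assoc, ← mul_assoc (e ^ i), inv_pow, mul_inv_cancel₀ (pow_ne_zero _ he),
      one_mul]
  rw [h2]
  refine R.neg_mem (R.sum_mem (fun i _ => R.mul_mem ?_ (R.pow_mem hinv _)))
  exact (P.coeff i).2

end Total

end Fermat.Agent.S18.H94
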