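import Fermat.Agent.S18.Alg.Spec
import Fermat.Agent.S18.H94.AlgConstAbs
import Fermat.Agent.S18.H138.ChartsConst

/-!
# S18 / node_alg, wiring piece (C) CONSTANTS in `Alg/Spec` language (helper94)

Setting: `G : Alg.GoodModel Lc Ec Fc R V w x S`, `K` a field extension of the field `↥Fc` of PRIME
degree which does not embed into `Ω` over `Fc` (e.g. `K = AdjoinRoot (X ^ m - C u)` with `u` not an
`m`-th power in `Ω`), `R₀` any commutative ring with compatible algebra structures
`R₀ → ↥Fc → K` whose image in `Ω` is exactly `R` (e.g. `R₀ = ↥(R.comap Fc.subtype)`).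

* `goodModel_isIntegral_mem_range` : every element of `K` integral over `R₀` comes from `R₀`
  (= hypothesis `hRF` of `H138.connected_special_fibre`).
* `goodModel_algebraMap_injective` : `R₀ → K` is injective (= `hinjR`), under `hR₀inj`.
* `goodModel_finiteDimensional_baseField` : `K` is finite-dimensional over
  `H138.baseField R₀ x` (= the instance needed by `H138.connected_special_fibre`).
* `goodModel_transcendental` : `x` is transcendental over `R₀` in `K`.
-/

set_option autoImplicit false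
set_option linter.style.haveILetI false

noncomputable section

namespace Fermat.Agent.S18.H94

open Fermat.Agent.S18.Alg Polynomial

variable {Ω : Type*} [Field Ω] {Lc Ec Fc : Subfield Ω} {R V : Subring Ω} {w x : Ω}
  {S : Finset Ω}

/-- Every polynomial over `Ec` splits in `Ω` (because `Lc` is algebraically closed). -/
theorem goodModel_splits (G : GoodModel Lc Ec Fc R V w x S) (g : Polynomial Ec) :
    (g.map (algebraMap Ec Ω)).Splits := by
  haveI : IsAlgClosed Lc := G.L_algClosed
  have h1 : (g.map (Subfield.inclusion G.E_le_L)).Splits := IsAlgClosed.splits _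
  have h2 := h1.map Lc.subtype
  rw [Polynomial.map_map] at h2
  exact h2

section Ext

variable (G : GoodModel Lc Ec Fc R V w x S)
  {K : Type*} [Field K] [Algebra Fc K]
  {R₀ : Type*} [CommRing R₀] [Algebra R₀ Fc] [Algebra R₀ K] [IsScalarTower R₀ Fc K]

include G in
/-- Elements of `Fc` integral over `R₀` come from `R₀`. -/
theorem goodModel_isIntegral_mem_range_Fc
    (hR₀ : ∀ r ∈ R, ∃ r₀ : R₀, ((algebraMap R₀ Fc r₀ : Fc) : Ω) = r)
    (hR₀' : ∀ r₀ : R₀, ((algebraMap R₀ Fc r₀ : Fc) : Ω) ∈ R)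
    {f : Fc} (hf : IsIntegral R₀ f) : f ∈ Set.range (algebraMap R₀ Fc) := by
  -- the ring hom `R₀ → R`
  let ψ : R₀ →+* R := ((Fc.subtype).comp (algebraMap R₀ Fc)).codRestrict R hR₀'
  -- `f` is integral over `R` (as an element of `Ω`)
  have hfR : IsIntegral R (f : Ω) := by
    obtain ⟨P, hP, hPf⟩ := hf
    refine ⟨P.map ψ, hP.map ψ, ?_⟩
    rw [eval₂_map]
    have hcomp : (algebraMap R Ω).comp ψ = (Fc.subtype).comp (algebraMap R₀ Fc) := by
      ext r; rfl
    rw [hcomp]
    have h := Polynomial.hom_eval₂ P (algebraMap R₀ Fc) Fc.subtype f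
    rw [hPf, map_zero] at h
    exact h.symm
  -- `f` is algebraic over `Ec`
  have hfE : IsAlgebraic Ec (f : Ω) := by
    let ι : R →+* Ec := Subring.inclusion (fun r hr => G.R_le hr)
    obtain ⟨P, hP, hPf⟩ := hfR
    refine ⟨P.map ι, (hP.map ι).ne_zero, ?_⟩
    rw [aeval_def, eval₂_map]
    have hcomp : (algebraMap Ec Ω).comp ι = algebraMap R Ω := by
      ext r; rfl
    rw [hcomp]
    exact hPf
  have hfEc : (f : Ω) ∈ Ec := G.E_closed_in_F f f.2 hfE
  have hfmem : (f : Ω) ∈ R := by
    rcases G.R_total f hfEc with h | h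
    · exact h
    · exact mem_of_isIntegral_of_inv_mem R hfR h
  obtain ⟨r₀, hr₀⟩ := hR₀ f hfmem
  exact ⟨r₀, Subtype.ext hr₀⟩

include G in
/-- **(C3)** `R₀` is integrally closed in `K`. -/
theorem goodModel_isIntegral_mem_range
    (hprime : (Module.finrank Fc K).Prime) (hno : IsEmpty (K →ₐ[Fc] Ω))
    (hR₀ : ∀ r ∈ R, ∃ r₀ : R₀, ((algebraMap R₀ Fc r₀ : Fc) : Ω) = r)
    (hR₀' : ∀ r₀ : R₀, ((algebraMap R₀ Fc r₀ : Fc) : Ω) ∈ R)
    {y : K} (hy : IsIntegral R₀ y) : y ∈ Set.range (algebraMap R₀ K) := by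
  letI : Algebra Ec Fc := (Subfield.inclusion G.E_le_F).toAlgebra
  letI : Algebra Ec K := ((algebraMap Fc K).comp (algebraMap Ec Fc)).toAlgebra
  haveI : IsScalarTower Ec Fc K := IsScalarTower.of_algebraMap_eq (fun _ => rfl)
  haveI : IsScalarTower Ec Fc Ω := IsScalarTower.of_algebraMap_eq (fun _ => rfl)
  -- `y` is algebraic over `Ec`
  have hyE : IsAlgebraic Ec y := by
    let ψ : R₀ →+* Ec := ((Fc.subtype).comp (algebraMap R₀ Fc)).codRestrict Ec
      (fun r₀ => G.R_le (hR₀' r₀))
    obtain ⟨P, hP, hPy⟩ := hy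
    refine ⟨P.map ψ, (hP.map ψ).ne_zero, ?_⟩
    rw [aeval_def, eval₂_map]
    have hcomp : (algebraMap Ec K).comp ψ = algebraMap R₀ K := by
      ext r
      rw [IsScalarTower.algebraMap_apply R₀ Fc K]
      rfl
    rw [hcomp]
    exact hPy
  obtain ⟨f, rfl⟩ := mem_range_algebraMap_of_isAlgebraic_of_prime (E := Ec) (F := Fc) (Ω := Ω)
    (goodModel_splits G) hprime hno hyE
  have hf : IsIntegral R₀ f :=
    (isIntegral_algebraMap_iff (algebraMap Fc K).injective).mp hy
  obtain ⟨r₀, rfl⟩ := goodModel_isIntegral_mem_range_Fc G hR₀ hR₀' hf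
  exact ⟨r₀, IsScalarTower.algebraMap_apply R₀ Fc K r₀⟩

/-- The coordinate `x` as an element of `K`. -/
def xK (G : GoodModel Lc Ec Fc R V w x S) (K : Type*) [Field K] [Algebra Fc K] : K :=
  algebraMap Fc K ⟨x, G.x_mem⟩

include G in
/-- `x` is transcendental over `R₀` in `K`. -/
theorem goodModel_transcendental (hinj : Function.Injective (algebraMap R₀ Fc))
    (hR₀' : ∀ r₀ : R₀, ((algebraMap R₀ Fc r₀ : Fc) : Ω) ∈ R) :
    Transcendental R₀ (xK G K) := by
  have h1 : Transcendental R₀ (⟨x, G.x_mem⟩ : Fc) := by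
    let f : R₀ →+* Lc := ((Fc.subtype).comp (algebraMap R₀ Fc)).codRestrict Lc
      (fun r₀ => G.E_le_L (G.R_le (hR₀' r₀)))
    have hf : Function.Injective f := by
      intro a b hab
      apply hinj
      apply Subtype.ext
      have h := congrArg (fun t : Lc => (t : Ω)) hab
      exact h
    refine Transcendental.of_ringHom_of_comp_eq (S := Lc) (B := Ω) f Fc.subtype
      (a := (⟨x, G.x_mem⟩ : Fc)) G.x_transcendental hf ?_
    ext r; rfl
  exact (transcendental_algebraMap_iff (algebraMap Fc K).injective).mpr h1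

omit [IsScalarTower R₀ Fc K] in
include G in
/-- The image of `ratField Ec x` in `K` lies in `H138.baseField R₀ x`. -/
theorem goodModel_ratField_le [IsScalarTower R₀ Fc K]
    (hR₀ : ∀ r ∈ R, ∃ r₀ : R₀, ((algebraMap R₀ Fc r₀ : Fc) : Ω) = r)
    {c : Ω} (hc : c ∈ ratField Ec x) :
    ∃ f : Fc, algebraMap Fc K f ∈ H138.baseField R₀ (xK G K) ∧ (f : Ω) = c := by
  let T : Subfield Ω :=
    ((H138.baseField R₀ (xK G K)).comap (algebraMap Fc K)).map Fc.subtype
  have hT : ratField Ec x ≤ T := by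
    unfold ratField
    rw [Subfield.closure_le]
    rintro c (hcE | hcx)
    · have hcF : c ∈ Fc := G.E_le_F hcE
      refine ⟨⟨c, hcF⟩, ?_, rfl⟩
      change algebraMap Fc K ⟨c, hcF⟩ ∈ H138.baseField R₀ (xK G K)
      rcases G.R_total c hcE with h | h
      · obtain ⟨r₀, hr₀⟩ := hR₀ c h
        have : algebraMap Fc K ⟨c, hcF⟩ = algebraMap R₀ K r₀ := by
          rw [IsScalarTower.algebraMap_apply R₀ Fc K]
          congr 1
          exact Subtype.ext hr₀.symm
        rw [this]
        exact Subfield.subset_closure (Or.inl ⟨r₀, rfl⟩)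
      · obtain ⟨r₀, hr₀⟩ := hR₀ c⁻¹ h
        have : algebraMap Fc K ⟨c, hcF⟩ = (algebraMap R₀ K r₀)⁻¹ := by
          rw [IsScalarTower.algebraMap_apply R₀ Fc K, ← map_inv₀]
          congr 1
          apply Subtype.ext
          rw [Subfield.coe_inv, hr₀, inv_inv]
        rw [this]
        exact Subfield.inv_mem _ (Subfield.subset_closure (Or.inl ⟨r₀, rfl⟩))
    · rw [Set.mem_singleton_iff] at hcx
      subst hcx
      exact ⟨⟨c, G.x_mem⟩, Subfield.subset_closure (Or.inr rfl), rfl⟩
  obtain ⟨f, hf, hfc⟩ := hT hc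
  exact ⟨f, hf, hfc⟩

include G in
/-- **(C4)** `K` is finite-dimensional over the field generated by `R₀` and `x`. -/
theorem goodModel_finiteDimensional_baseField [FiniteDimensional Fc K]
    (hR₀ : ∀ r ∈ R, ∃ r₀ : R₀, ((algebraMap R₀ Fc r₀ : Fc) : Ω) = r) :
    FiniteDimensional (H138.baseField R₀ (xK G K)) K := by
  classical
  obtain ⟨t, ht⟩ := (Module.Finite.fg_top : (⊤ : Submodule Fc K).FG)
  obtain ⟨s, hsF, hs⟩ := G.finite
  -- generators
  let sK : Finset K := s.attach.image (fun a => algebraMap Fc K ⟨a.1, hsF a.2⟩)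
  let gens : Finset K := Finset.image₂ (fun a b => a * b) sK t
  set N : Submodule (H138.baseField R₀ (xK G K)) K := Submodule.span _ (gens : Set K) with hN
  -- Lemma A
  have hA : ∀ b ∈ t, ∀ c : Ω, c ∈ Submodule.span (ratField Ec x) (s : Set Ω) →
      ∃ hc : c ∈ Fc, algebraMap Fc K ⟨c, hc⟩ * b ∈ N := by
    intro b hb c hc
    induction hc using Submodule.span_induction with
    | mem c hcs =>
      refine ⟨hsF hcs, Submodule.subset_span ?_⟩
      rw [Finset.mem_coe, Finset.mem_image₂]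
      refine ⟨algebraMap Fc K ⟨c, hsF hcs⟩, ?_, b, hb, rfl⟩
      rw [Finset.mem_image]
      exact ⟨⟨c, hcs⟩, Finset.mem_attach _ _, rfl⟩
    | zero =>
      refine ⟨Fc.zero_mem, ?_⟩
      have : (⟨0, Fc.zero_mem⟩ : Fc) = 0 := rfl
      rw [this, map_zero, zero_mul]
      exact N.zero_mem
    | add c d _ _ hc hd =>
      obtain ⟨hcF, hc'⟩ := hc
      obtain ⟨hdF, hd'⟩ := hd
      refine ⟨Fc.add_mem hcF hdF, ?_⟩
      have : (⟨c + d, Fc.add_mem hcF hdF⟩ : Fc) = ⟨c, hcF⟩ + ⟨d, hdF⟩ := rfl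
      rw [this, map_add, add_mul]
      exact N.add_mem hc' hd'
    | smul r c _ hc =>
      obtain ⟨hcF, hc'⟩ := hc
      obtain ⟨f, hf, hfr⟩ := goodModel_ratField_le (K := K) (R₀ := R₀) G hR₀ r.2
      have hrF : (r : Ω) ∈ Fc := hfr ▸ f.2
      have hrc : r • c = (r : Ω) * c := rfl
      refine ⟨hrc ▸ Fc.mul_mem hrF hcF, ?_⟩
      have h1 : (⟨r • c, hrc ▸ Fc.mul_mem hrF hcF⟩ : Fc) = f * ⟨c, hcF⟩ := by
        apply Subtype.ext
        change r • c = (f : Ω) * c
        rw [hfr]
        rfl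
      rw [h1, map_mul, mul_assoc]
      have h2 : algebraMap Fc K f * (algebraMap Fc K ⟨c, hcF⟩ * b)
          = (⟨algebraMap Fc K f, hf⟩ : H138.baseField R₀ (xK G K)) •
            (algebraMap Fc K ⟨c, hcF⟩ * b) := rfl
      rw [h2]
      exact N.smul_mem _ hc'
  -- every element of `K` lies in `N`
  have hB : ∀ y : K, ∀ f : Fc, f • y ∈ N := by
    intro y
    have hy : y ∈ Submodule.span Fc (t : Set K) := by rw [ht]; trivial
    induction hy using Submodule.span_induction with
    | mem y hyt =>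
      intro f
      obtain ⟨hfF, hf'⟩ := hA y hyt (f : Ω) (hs f f.2)
      rw [Algebra.smul_def]
      exact hf'
    | zero =>
      intro f
      rw [smul_zero]
      exact N.zero_mem
    | add y z _ _ hy hz =>
      intro f
      rw [smul_add]
      exact N.add_mem (hy f) (hz f)
    | smul a y _ hy =>
      intro f
      rw [smul_smul]
      exact hy (f * a)
  refine Module.finite_def.mpr ⟨gens, ?_⟩
  rw [eq_top_iff]
  intro y _
  have := hB y 1
  rwa [one_smul] at this

end Ext

end Fermat.Agent.S18.H94
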