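import Fermat.Agent.S18.Alg.Spec

/-!
# S18 / node_alg, wiring piece (E) ENLARGE (helper94, ALG-ASM backup)

Language: the frozen `Fermat.Agent.S18.Alg` interface v4 (`GoodModel`, `GoodFamily`,
`AlgMainStatement`), Mathlib-only.

* `AlgMainZetaStatement Lc x S 𝓕` : `AlgMainStatement` restricted to members `p = (Ec,Fc,R,V,w)`
  whose ring `R` contains a primitive `m`-th root of unity.
* `AlgMainContraStatement Lc x S 𝓕` : the same in contradiction form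
  (extra hypothesis `∀ y, ∀ c ∈ Lc, c ≠ 0 → u ≠ c * y ^ m`, conclusion `False`).
* `algMain_of_zeta : AlgMainZetaStatement Lc x S 𝓕 → AlgMainStatement Lc x S 𝓕`
* `algMainZeta_of_contra : AlgMainContraStatement Lc x S 𝓕 → AlgMainZetaStatement Lc x S 𝓕`
* `algMain_of_contra : AlgMainContraStatement Lc x S 𝓕 → AlgMainStatement Lc x S 𝓕`

Reusable lemmas about two members `p ≤ p'` of a family:
`goodModel_w_inv_notMem_of_le` (`w⁻¹ ∉ R'`), `goodModel_w_mul_inv_mem_of_le` (`w * w'⁻¹ ∈ R'`),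
`goodModel_sub_one_mul_inv_mem_of_le` (`(u-1)/w ∈ V → (u-1)/w' ∈ V'`),
`goodModel_mem_of_pow_eq_one` (roots of unity of `Ec` lie in `R`),
`goodModel_exists_primitiveRoot` (primitive roots of unity exist in `Lc`).
-/

set_option autoImplicit false
set_option linter.style.haveILetI false

namespace Fermat.Agent.S18.H94

open Fermat.Agent.S18.Alg

variable {Ω : Type*} [Field Ω]

section OneModel

variable {Lc Ec Fc : Subfield Ω} {R V : Subring Ω} {w x : Ω} {S : Finset Ω}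

/-- If `ℓ / w ∈ R` for a nonzero natural number `ℓ`, then `ℓ` is not a unit of `R`. -/
theorem goodModel_natCast_inv_notMem (h : GoodModel Lc Ec Fc R V w x S) {ℓ : ℕ}
    (hℓ0 : ℓ ≠ 0) (hℓ : (ℓ : Ω) * w⁻¹ ∈ R) : ((ℓ : Ω))⁻¹ ∉ R := by
  intro hinv
  haveI := h.charZero
  have hℓΩ : (ℓ : Ω) ≠ 0 := Nat.cast_ne_zero.mpr hℓ0
  apply h.w_inv_not_mem
  have : w⁻¹ = (ℓ : Ω)⁻¹ * ((ℓ : Ω) * w⁻¹) := by
    rw [← mul_assoc, inv_mul_cancel₀ hℓΩ, one_mul]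
  rw [this]
  exact R.mul_mem hinv hℓ

/-- A prime different from the residue characteristic is a unit of `R`. -/
theorem goodModel_natCast_inv_mem_of_ne (h : GoodModel Lc Ec Fc R V w x S) {ℓ ℓ' : ℕ}
    (hℓp : ℓ.Prime) (hℓ'p : ℓ'.Prime) (hne : ℓ ≠ ℓ') (hℓ : (ℓ : Ω) * w⁻¹ ∈ R) :
    ((ℓ' : Ω))⁻¹ ∈ R := by
  by_contra hn
  have hℓ'R : (ℓ' : Ω) ∈ R := natCast_mem R ℓ'
  have hℓ' : (ℓ' : Ω) * w⁻¹ ∈ R := h.w_gen _ hℓ'R hn
  have hcop : IsCoprime (ℓ : ℤ) (ℓ' : ℤ) :=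
    Nat.isCoprime_iff_coprime.mpr ((Nat.coprime_primes hℓp hℓ'p).mpr hne)
  obtain ⟨a, b, hab⟩ := hcop
  apply h.w_inv_not_mem
  have hcast : ((a : Ω) * (ℓ : Ω) + (b : Ω) * (ℓ' : Ω)) = 1 := by
    have := congrArg (fun t : ℤ => (t : Ω)) hab
    simpa using this
  have : w⁻¹ = (a : Ω) * ((ℓ : Ω) * w⁻¹) + (b : Ω) * ((ℓ' : Ω) * w⁻¹) := by
    rw [← mul_assoc, ← mul_assoc, ← add_mul, hcast, one_mul]
  rw [this]
  exact R.add_mem (R.mul_mem (intCast_mem R a) hℓ) (R.mul_mem (intCast_mem R b) hℓ')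

/-- Roots of unity of `Ec` lie in `R`. -/
theorem goodModel_mem_of_pow_eq_one (h : GoodModel Lc Ec Fc R V w x S) {ζ : Ω} (hζE : ζ ∈ Ec)
    {m : ℕ} (hm : m ≠ 0) (hζ : ζ ^ m = 1) : ζ ∈ R := by
  rcases h.R_total ζ hζE with h1 | h1
  · exact h1
  · have hζ0 : ζ ≠ 0 := by
      rintro rfl
      rw [zero_pow hm] at hζ
      exact zero_ne_one hζ
    have : ζ = (ζ⁻¹) ^ (m - 1) := by
      have hm1 : m = (m - 1) + 1 := (Nat.succ_pred_eq_of_pos (Nat.pos_of_ne_zero hm)).symm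
      have h2 : ζ ^ (m - 1) * ζ = 1 := by rw [← pow_succ, ← hm1, hζ]
      rw [inv_pow]
      exact (eq_inv_of_mul_eq_one_right h2)
    rw [this]
    exact R.pow_mem h1 _

/-- Primitive roots of unity exist in the algebraically closed constant field `Lc`. -/
theorem goodModel_exists_primitiveRoot (h : GoodModel Lc Ec Fc R V w x S) {m : ℕ}
    (hm : m ≠ 0) : ∃ ζ ∈ Lc, IsPrimitiveRoot ζ m := by
  haveI := h.charZero
  haveI : IsAlgClosed Lc := h.L_algClosed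
  haveI : CharZero Lc := ⟨fun a b hab => Nat.cast_injective (R := Ω) (by
    simpa using congrArg (Subtype.val) hab)⟩
  haveI : NeZero ((m : ℕ) : Lc) := ⟨Nat.cast_ne_zero.mpr hm⟩
  obtain ⟨ζ, hζ⟩ := HasEnoughRootsOfUnity.exists_primitiveRoot Lc m
  exact ⟨(ζ : Ω), ζ.2, hζ.map_of_injective (f := Lc.subtype) Lc.subtype.injective⟩

end OneModel

section TwoModels

variable {Lc Ec Fc Ec' Fc' : Subfield Ω} {R V R' V' : Subring Ω} {w w' x : Ω} {S : Finset Ω}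

/-- The uniformiser of a smaller member stays a non-unit in a larger member. -/
theorem goodModel_w_inv_notMem_of_le (h : GoodModel Lc Ec Fc R V w x S)
    (h' : GoodModel Lc Ec' Fc' R' V' w' x S) (hRR : R ≤ R') : w⁻¹ ∉ R' := by
  intro hw
  haveI := h.charZero
  obtain ⟨ℓ, hℓp, hℓ, -⟩ := h.residue_perfect
  obtain ⟨ℓ', hℓ'p, hℓ', -⟩ := h'.residue_perfect
  have hℓΩ : (ℓ : Ω) ≠ 0 := Nat.cast_ne_zero.mpr hℓp.ne_zero
  -- `ℓ` is a unit of `R'`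
  have hℓinv : ((ℓ : Ω))⁻¹ ∈ R' := by
    obtain ⟨n, hn1, hn2⟩ := h.w_discrete (ℓ : Ω) (natCast_mem R ℓ) hℓΩ
    have : ((ℓ : Ω))⁻¹ = ((ℓ : Ω) * (w⁻¹) ^ n)⁻¹ * (w⁻¹) ^ n := by
      have hw0 : (w⁻¹) ^ n ≠ 0 := pow_ne_zero _ (inv_ne_zero h.w_ne_zero)
      rw [mul_inv, mul_assoc, inv_mul_cancel₀ hw0, mul_one]
    rw [this]
    exact R'.mul_mem (hRR hn2) (R'.pow_mem hw _)
  have hℓ'not : ((ℓ' : Ω))⁻¹ ∉ R' := goodModel_natCast_inv_notMem h' hℓ'p.ne_zero hℓ'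
  by_cases hne : ℓ = ℓ'
  · subst hne
    exact hℓ'not hℓinv
  · exact hℓ'not (hRR (goodModel_natCast_inv_mem_of_ne h hℓp hℓ'p hne hℓ))

/-- `w / w' ∈ R'` for two members `p ≤ p'`. -/
theorem goodModel_w_mul_inv_mem_of_le (h : GoodModel Lc Ec Fc R V w x S)
    (h' : GoodModel Lc Ec' Fc' R' V' w' x S) (hRR : R ≤ R') : w * w'⁻¹ ∈ R' :=
  h'.w_gen w (hRR h.w_mem) (goodModel_w_inv_notMem_of_le h h' hRR)

/-- Congruence modulo `w` in `V` implies congruence modulo `w'` in `V'`. -/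
theorem goodModel_mul_inv_mem_of_le (h : GoodModel Lc Ec Fc R V w x S)
    (h' : GoodModel Lc Ec' Fc' R' V' w' x S) (hRR : R ≤ R') (hVV : V ≤ V') {f : Ω}
    (hf : f * w⁻¹ ∈ V) : f * w'⁻¹ ∈ V' := by
  have : f * w'⁻¹ = (f * w⁻¹) * (w * w'⁻¹) := by
    rw [mul_assoc, ← mul_assoc w⁻¹, inv_mul_cancel₀ h.w_ne_zero, one_mul]
  rw [this]
  exact V'.mul_mem (hVV hf) (h'.R_le_V (goodModel_w_mul_inv_mem_of_le h h' hRR))

end TwoModels

/-- `AlgMainStatement` restricted to members whose ring `R` contains a primitive `m`-th root of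
unity. -/
def AlgMainZetaStatement (Lc : Subfield Ω) (x : Ω) (S : Finset Ω) (𝓕 : Set (Model Ω)) : Prop :=
  GoodFamily Lc x S 𝓕 →
    ∀ p ∈ 𝓕, ∀ m : ℕ, m.Prime → ((m : Ω))⁻¹ ∈ p.2.2.1 →
    (∃ ζ ∈ p.2.2.1, IsPrimitiveRoot ζ m) →
    ∀ u ∈ p.2.1, u ≠ 0 → (u - 1) * (p.2.2.2.2)⁻¹ ∈ p.2.2.2.1 →
      (∀ O : ValuationSubring Ω, (∀ a ∈ Lc, a ∈ O) →
        ∃ t : Ω, t ≠ 0 ∧ u * t ^ m ∈ O ∧ (u * t ^ m)⁻¹ ∈ O) →
      ∃ y : Ω, ∃ c ∈ Lc, c ≠ 0 ∧ u = c * y ^ m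

/-- The contradiction form of `AlgMainZetaStatement`: a function `u ≡ 1 mod w` with divisor
divisible by the prime `m` which is NOT a constant times an `m`-th power does not exist. -/
def AlgMainContraStatement (Lc : Subfield Ω) (x : Ω) (S : Finset Ω) (𝓕 : Set (Model Ω)) : Prop :=
  GoodFamily Lc x S 𝓕 →
    ∀ p ∈ 𝓕, ∀ m : ℕ, m.Prime → ((m : Ω))⁻¹ ∈ p.2.2.1 →
    (∃ ζ ∈ p.2.2.1, IsPrimitiveRoot ζ m) →
    ∀ u ∈ p.2.1, u ≠ 0 → (u - 1) * (p.2.2.2.2)⁻¹ ∈ p.2.2.2.1 →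
      (∀ O : ValuationSubring Ω, (∀ a ∈ Lc, a ∈ O) →
        ∃ t : Ω, t ≠ 0 ∧ u * t ^ m ∈ O ∧ (u * t ^ m)⁻¹ ∈ O) →
      (∀ y : Ω, ∀ c ∈ Lc, c ≠ 0 → u ≠ c * y ^ m) → False

theorem algMainZeta_of_contra {Lc : Subfield Ω} {x : Ω} {S : Finset Ω} {𝓕 : Set (Model Ω)}
    (H : AlgMainContraStatement Lc x S 𝓕) : AlgMainZetaStatement Lc x S 𝓕 := by
  intro h𝓕 p hp m hm hmR hζ u hu hu0 hu1 hval
  by_contra hcon
  refine H h𝓕 p hp m hm hmR hζ u hu hu0 hu1 hval ?_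
  intro y c hc hc0 huy
  exact hcon ⟨y, c, hc, hc0, huy⟩

/-- **(E) ENLARGE.**  It suffices to prove the ALG main statement for members containing a
primitive `m`-th root of unity. -/
theorem algMain_of_zeta {Lc : Subfield Ω} {x : Ω} {S : Finset Ω} {𝓕 : Set (Model Ω)}
    (H : AlgMainZetaStatement Lc x S 𝓕) : AlgMainStatement Lc x S 𝓕 := by
  intro h𝓕 p hp m hm hmR u hu hu0 hu1 hval
  have hgood := h𝓕.good p hp
  obtain ⟨ζ, hζL, hζ⟩ := goodModel_exists_primitiveRoot hgood hm.ne_zero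
  obtain ⟨p', hp', hle, hT⟩ := h𝓕.enlarge p hp {ζ} (by
    intro a ha
    rw [Finset.mem_singleton] at ha
    rw [ha]
    exact hζL)
  have hgood' := h𝓕.good p' hp'
  obtain ⟨-, hFF, hRR, hVV⟩ := hle
  have hζE : ζ ∈ p'.1 := hT ζ (Finset.mem_singleton_self ζ)
  have hζR : ζ ∈ p'.2.2.1 := goodModel_mem_of_pow_eq_one hgood' hζE hm.ne_zero hζ.pow_eq_one
  exact H h𝓕 p' hp' m hm (hRR hmR) ⟨ζ, hζR, hζ⟩ u (hFF hu) hu0
    (goodModel_mul_inv_mem_of_le hgood hgood' hRR hVV hu1) hval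

theorem algMain_of_contra {Lc : Subfield Ω} {x : Ω} {S : Finset Ω} {𝓕 : Set (Model Ω)}
    (H : AlgMainContraStatement Lc x S 𝓕) : AlgMainStatement Lc x S 𝓕 :=
  algMain_of_zeta (algMainZeta_of_contra H)

end Fermat.Agent.S18.H94
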