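import Fermat.Agent.S18.H94.AlgTypes
import Fermat.Agent.S18.H394.ChartInst
import Fermat.Agent.S18.H754.KummerSpec

/-!
# S18 / node_alg (helper94): piece (L3) `OneModPi` on the typed chart

For a good model `G` (typed objects of `H94/AlgTypes.lean`, `B = H138.chart (Rsub Fc R) {xF G}`,
`ϖ = algebraMap (Rsub Fc R) B (wR G)`):

* `qep_pow` : `b ∈ chart`, `b / w ^ k ∈ V` ⟹ `b / w ^ k ∈ chart`,
* `exists_fraction_of_mem_V` : `V = B_(ϖ)`: every `v ∈ V` is `c / s` with `c, s ∈ B`, `ϖ ∤ s`,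
* `oneModPi_chart` : `(u - 1) / w ∈ V` ⟹ `H754.OneModPi ϖ u`   (= input `hone` of
  `H94.algMain_of_pieces`).
-/

set_option autoImplicit false
set_option linter.style.haveILetI false
set_option linter.unusedSectionVars false

noncomputable section

namespace Fermat.Agent.S18.H94

open Fermat.Agent.S18.Alg Polynomial
open Fermat.Agent.S18.H138 (chart baseField)

variable {Ω : Type*} [Field Ω] {Lc Ec Fc : Subfield Ω} {R V : Subring Ω} {w x : Ω}
  {S : Finset Ω}

section One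

variable (G : GoodModel Lc Ec Fc R V w x S)

include G in
/-- Iterated `q`-expansion principle. -/
theorem qep_pow (k : ℕ) {b : Ω} (hb : b ∈ Alg.chart Fc R x) (hV : b * (w⁻¹) ^ k ∈ V) :
    b * (w⁻¹) ^ k ∈ Alg.chart Fc R x := by
  induction k with
  | zero => simpa using hb
  | succ k ih =>
    have h1 : b * (w⁻¹) ^ k = w * (b * (w⁻¹) ^ (k + 1)) := by
      have hw0 := G.w_ne_zero
      rw [pow_succ]
      field_simp
    have h2 : b * (w⁻¹) ^ k ∈ V := by
      rw [h1]
      exact V.mul_mem (G.R_le_V G.w_mem) hV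
    have h3 := G.qep_fin _ (ih h2) (by rw [mul_assoc, ← pow_succ]; exact hV)
    rw [mul_assoc, ← pow_succ] at h3
    exact h3

include G in
/-- The instances of the typed chart. -/
theorem chart_instances_of_goodModel :
    IsNoetherianRing (chart (Rsub Fc R) ({xF G} : Set Fc)) ∧
    IsIntegrallyClosed (chart (Rsub Fc R) ({xF G} : Set Fc)) ∧
    IsFractionRing (chart (Rsub Fc R) ({xF G} : Set Fc)) Fc := by
  haveI : IsDiscreteValuationRing (Rsub Fc R) := isDVR_Rsub G
  haveI : CharZero Fc := charZero_Fc G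
  haveI : FiniteDimensional (baseField (Rsub Fc R) (xF G)) Fc := finiteDimensional_xF G
  exact H394.chart_instances (transcendental_xF G)

include G in
/-- `V = B_(ϖ)`: every element of `V` is a fraction `c / s` with `c, s ∈ B`, `ϖ ∤ s`. -/
theorem exists_fraction_of_mem_V {v : Fc} (hv : (v : Ω) ∈ V) :
    ∃ c s : chart (Rsub Fc R) ({xF G} : Set Fc),
      ¬ algebraMap (Rsub Fc R) (chart (Rsub Fc R) ({xF G} : Set Fc)) (wR G) ∣ s ∧
      v * (s : Fc) = (c : Fc) := by
  obtain ⟨hN, -, hFr⟩ := chart_instances_of_goodModel G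
  haveI := hN
  haveI := hFr
  set B := chart (Rsub Fc R) ({xF G} : Set Fc) with hB
  set ϖ : B := algebraMap (Rsub Fc R) B (wR G) with hϖ
  have hϖp : Prime ϖ := prime_wR_chart G
  obtain ⟨c₀, s₀, hs₀, hvs⟩ := IsFractionRing.div_surjective (A := B) v
  have hs₀0 : (s₀ : B) ≠ 0 := nonZeroDivisors.ne_zero hs₀
  obtain ⟨k, s', hs', hss⟩ := WfDvdMonoid.max_power_factor' hs₀0 hϖp.not_isUnit
  have hs₀F : ((s₀ : B) : Fc) ≠ 0 := fun h => hs₀0 (Subtype.ext h)
  -- `v * s' = c₀ / w ^ k`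
  have hkey : ((v * (s' : Fc) : Fc) : Ω) = (((c₀ : B) : Fc) : Ω) * (w⁻¹) ^ k := by
    have h1 : v * ((s₀ : B) : Fc) = ((c₀ : B) : Fc) := by
      rw [← hvs]
      change algebraMap B Fc c₀ / algebraMap B Fc s₀ * algebraMap B Fc s₀ = algebraMap B Fc c₀
      rw [div_mul_cancel₀]
      exact fun h => hs₀F h
    have h2 : ((s₀ : B) : Fc) = (wF G) ^ k * (s' : Fc) := by
      have := congrArg (fun b : B => (b : Fc)) hss
      exact this
    have h3 : (v : Ω) * ((w ^ k) * ((s' : Fc) : Ω)) = (((c₀ : B) : Fc) : Ω) := by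
      have := congrArg (fun f : Fc => (f : Ω)) h1
      rw [h2] at this
      exact this
    have hwk : (w : Ω) ^ k ≠ 0 := pow_ne_zero _ G.w_ne_zero
    change (v : Ω) * ((s' : Fc) : Ω) = _
    rw [← h3, inv_pow]
    field_simp
  have hcV : (((c₀ : B) : Fc) : Ω) * (w⁻¹) ^ k ∈ V := by
    rw [← hkey]
    exact V.mul_mem hv (chart_le_V G ((mem_chart_iff G).mp s'.2))
  have hc := qep_pow G k ((mem_chart_iff G).mp c₀.2) hcV
  rw [← hkey] at hc
  refine ⟨⟨v * (s' : Fc), (mem_chart_iff G).mpr hc⟩, s', hs', rfl⟩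

include G in
/-- **(L3)** `u ≡ 1 mod w` in `V` gives `H754.OneModPi`. -/
theorem oneModPi_chart (u : Fc) (hu1 : ((u : Ω) - 1) * w⁻¹ ∈ V) :
    H754.OneModPi (algebraMap (Rsub Fc R) (chart (Rsub Fc R) ({xF G} : Set Fc)) (wR G)) u := by
  set B := chart (Rsub Fc R) ({xF G} : Set Fc) with hB
  set ϖ : B := algebraMap (Rsub Fc R) B (wR G) with hϖ
  obtain ⟨c, s, hs, hvs⟩ := exists_fraction_of_mem_V G (v := (u - 1) * (wF G)⁻¹) hu1
  refine ⟨s + ϖ * c, s, ?_, ?_, ?_⟩
  · rw [Ideal.mem_span_singleton]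
    exact hs
  · rw [Ideal.mem_span_singleton]
    exact ⟨c, by ring⟩
  · change u * (s : Fc) = ((s + ϖ * c : B) : Fc)
    have h1 : ((s + ϖ * c : B) : Fc) = (s : Fc) + wF G * (c : Fc) := rfl
    rw [h1, ← hvs]
    have hw0 := wF_ne_zero G
    field_simp
    ring

end One

end Fermat.Agent.S18.H94
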