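import Fermat.Agent.S18.Alg.Spec
import Fermat.Agent.S18.H94.AlgConst
import Fermat.Agent.S18.H94.Dvr
import Fermat.Agent.S18.H138.Connected
import Fermat.Agent.S18.H394.KummerCharts

/-!
# S18 / node_alg (helper94): the typed objects attached to a good model

For `G : Alg.GoodModel Lc Ec Fc R V w x S` (sub-objects of `Ω`):

* `F := ↥Fc` (a field), `R₀ := ↥(Rsub Fc R)` with `Rsub Fc R = R.comap Fc.subtype : Subring Fc`,
* `xF G : Fc` the coordinate, `wR G : Rsub Fc R` the uniformiser,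
* the chart `H138.chart (Rsub Fc R) {xF G} : Subalgebra (Rsub Fc R) Fc`.

Results: `isDVR_Rsub`, `irreducible_wR`, `mem_chart_iff` (`H138.chart` = `Alg.chart`),
`chart_le_V`, `prime_wR_chart` (`w` is prime in the chart, from `qep_fin`),
and the hypotheses `hinjR`, `hRF`, `hx`, `FiniteDimensional` of `H138`/`H394`/`H33` theorems.
-/

set_option autoImplicit false
set_option linter.style.haveILetI false
set_option linter.unusedSectionVars false

noncomputable section

namespace Fermat.Agent.S18.H94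

open Fermat.Agent.S18.Alg Polynomial
open Fermat.Agent.S18.H138 (chart baseField)

variable {Ω : Type*} [Field Ω] {Lc Ec Fc : Subfield Ω} {R V : Subring Ω} {w x : Ω}
  {S : Finset Ω}

/-- `R` as a subring of the field `Fc`. -/
abbrev Rsub (Fc : Subfield Ω) (R : Subring Ω) : Subring Fc := R.comap Fc.subtype

theorem mem_Rsub {f : Fc} : f ∈ Rsub Fc R ↔ (f : Ω) ∈ R := Iff.rfl

section Objects

variable (G : GoodModel Lc Ec Fc R V w x S)

include G in
theorem R_le_Fc {r : Ω} (hr : r ∈ R) : r ∈ Fc := G.E_le_F (G.R_le hr)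

/-- the coordinate as an element of `Fc` -/
def xF : Fc := ⟨x, G.x_mem⟩

/-- the uniformiser as an element of `Fc` -/
def wF : Fc := ⟨w, R_le_Fc G G.w_mem⟩

/-- the uniformiser as an element of `R₀` -/
def wR : Rsub Fc R := ⟨wF G, G.w_mem⟩

@[simp] theorem coe_xF : ((xF G : Fc) : Ω) = x := rfl
@[simp] theorem coe_wF : ((wF G : Fc) : Ω) = w := rfl
@[simp] theorem coe_wR : ((wR G : Rsub Fc R) : Fc) = wF G := rfl
theorem algebraMap_wR : algebraMap (Rsub Fc R) Fc (wR G) = wF G := rfl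

include G

theorem wF_ne_zero : wF G ≠ 0 := fun h => G.w_ne_zero (congrArg Subtype.val h)

theorem charZero_Fc : CharZero Fc :=
  haveI := G.charZero
  ⟨fun a b hab => Nat.cast_injective (R := Ω) (by simpa using congrArg (Subtype.val) hab)⟩

theorem Rsub_disc : ∀ r ∈ Rsub Fc R, r ≠ 0 →
    ∃ n : ℕ, r * ((wF G)⁻¹) ^ n ∈ Rsub Fc R ∧ (r * ((wF G)⁻¹) ^ n)⁻¹ ∈ Rsub Fc R := by
  intro r hr hr0
  have hr0' : (r : Ω) ≠ 0 := fun h => hr0 (Subtype.ext h)
  obtain ⟨n, h1, h2⟩ := G.w_discrete r hr hr0'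
  exact ⟨n, h1, h2⟩

/-- **`R₀` is a discrete valuation ring.** -/
theorem isDVR_Rsub : IsDiscreteValuationRing (Rsub Fc R) :=
  isDiscreteValuationRing_of_disc94 (Rsub Fc R) (w := wF G) G.w_mem (wF_ne_zero G)
    (fun h => G.w_inv_not_mem h) (Rsub_disc G)

theorem irreducible_wR : Irreducible (wR G) :=
  irreducible_unif_of_disc94 (Rsub Fc R) (w := wF G) G.w_mem (wF_ne_zero G)
    (fun h => G.w_inv_not_mem h) (Rsub_disc G)

theorem hR₀ : ∀ r ∈ R, ∃ r₀ : Rsub Fc R, ((algebraMap (Rsub Fc R) Fc r₀ : Fc) : Ω) = r :=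
  fun r hr => ⟨⟨⟨r, R_le_Fc G hr⟩, hr⟩, rfl⟩

omit G in
theorem hR₀' : ∀ r₀ : Rsub Fc R, ((algebraMap (Rsub Fc R) Fc r₀ : Fc) : Ω) ∈ R :=
  fun r₀ => r₀.2

omit G in
theorem hinjR : Function.Injective (algebraMap (Rsub Fc R) Fc) :=
  fun _ _ h => Subtype.ext h

/-- `R₀` is integrally closed in `Fc`. -/
theorem hRF : ∀ y : Fc, IsIntegral (Rsub Fc R) y → y ∈ Set.range (algebraMap (Rsub Fc R) Fc) :=
  fun _ hy => goodModel_isIntegral_mem_range_Fc G (hR₀ G) hR₀' hy

/-- `x` is transcendental over `R₀`. -/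
theorem transcendental_xF : Transcendental (Rsub Fc R) (xF G) :=
  goodModel_transcendental (K := Fc) G hinjR hR₀'

/-- `Fc` is finite over the field generated by `R₀` and `x`. -/
theorem finiteDimensional_xF : FiniteDimensional (baseField (Rsub Fc R) (xF G)) Fc :=
  goodModel_finiteDimensional_baseField (K := Fc) G (hR₀ G)

end Objects

section Chart

variable (G : GoodModel Lc Ec Fc R V w x S)

omit G in
/-- Integrality over a subring `P ≤ P'` implies integrality over `P'`. -/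
theorem isIntegral_of_subring_le {P P' : Subring Ω} (h : P ≤ P') {b : Ω}
    (hb : IsIntegral P b) : IsIntegral P' b := by
  obtain ⟨Q, hQ, hQb⟩ := hb
  refine ⟨Q.map (Subring.inclusion h), hQ.map _, ?_⟩
  rw [eval₂_map]
  exact hQb

include G in
/-- `R₀[x] ⊆ R[x]`. -/
theorem coe_mem_polyRing_of_mem_adjoin {a : Fc}
    (ha : a ∈ Algebra.adjoin (Rsub Fc R) ({xF G} : Set Fc)) : (a : Ω) ∈ polyRing R x := by
  induction ha using Algebra.adjoin_induction with
  | mem y hy =>
    rw [Set.mem_singleton_iff] at hy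
    subst hy
    exact Subring.subset_closure (Or.inr rfl)
  | algebraMap r => exact Subring.subset_closure (Or.inl r.2)
  | add a b _ _ ha hb => exact (polyRing R x).add_mem ha hb
  | mul a b _ _ ha hb => exact (polyRing R x).mul_mem ha hb

include G in
/-- `R[x] ⊆ R₀[x]`. -/
theorem exists_mem_adjoin_of_mem_polyRing {c : Ω} (hc : c ∈ polyRing R x) :
    ∃ a : Fc, a ∈ Algebra.adjoin (Rsub Fc R) ({xF G} : Set Fc) ∧ (a : Ω) = c := by
  let T : Subring Ω := (Algebra.adjoin (Rsub Fc R) ({xF G} : Set Fc)).toSubring.map Fc.subtype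
  have hT : polyRing R x ≤ T := by
    unfold polyRing
    rw [Subring.closure_le]
    rintro c (hcR | hcx)
    · refine ⟨⟨c, R_le_Fc G hcR⟩, ?_, rfl⟩
      exact Subalgebra.algebraMap_mem _ (⟨⟨c, R_le_Fc G hcR⟩, hcR⟩ : Rsub Fc R)
    · rw [Set.mem_singleton_iff] at hcx
      subst hcx
      exact ⟨xF G, Algebra.subset_adjoin rfl, rfl⟩
  obtain ⟨a, ha, hac⟩ := hT hc
  exact ⟨a, ha, hac⟩

include G in
/-- **The typed chart is the chart of the interface.** -/
theorem mem_chart_iff {f : Fc} :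
    f ∈ chart (Rsub Fc R) ({xF G} : Set Fc) ↔ (f : Ω) ∈ Alg.chart Fc R x := by
  constructor
  · intro hf
    refine ⟨f.2, ?_⟩
    obtain ⟨Q, hQ, hQf⟩ := hf
    let φ : Algebra.adjoin (Rsub Fc R) ({xF G} : Set Fc) →+* polyRing R x :=
      (Fc.subtype.comp (Subalgebra.val _).toRingHom).codRestrict (polyRing R x)
        (fun a => coe_mem_polyRing_of_mem_adjoin G a.2)
    refine ⟨Q.map φ, hQ.map φ, ?_⟩
    rw [eval₂_map]
    have hcomp : (algebraMap (polyRing R x) Ω).comp φ
        = Fc.subtype.comp (algebraMap (Algebra.adjoin (Rsub Fc R) ({xF G} : Set Fc)) Fc) := by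
      ext a; rfl
    rw [hcomp]
    have h := Polynomial.hom_eval₂ Q
      (algebraMap (Algebra.adjoin (Rsub Fc R) ({xF G} : Set Fc)) Fc) Fc.subtype f
    rw [hQf, map_zero] at h
    exact h.symm
  · rintro ⟨-, hf⟩
    obtain ⟨Q, hQ, hQf⟩ := hf
    have hex : ∀ c : polyRing R x, ∃ a : Algebra.adjoin (Rsub Fc R) ({xF G} : Set Fc),
        ((a : Fc) : Ω) = c := by
      intro c
      obtain ⟨a, ha, hac⟩ := exists_mem_adjoin_of_mem_polyRing G c.2
      exact ⟨⟨a, ha⟩, hac⟩
    choose ψ hψ using hex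
    let φ' : polyRing R x →+* Algebra.adjoin (Rsub Fc R) ({xF G} : Set Fc) :=
      { toFun := ψ
        map_one' := by
          apply Subtype.ext; apply Subtype.ext
          rw [hψ]; rfl
        map_mul' := fun a b => by
          apply Subtype.ext; apply Subtype.ext
          rw [hψ]
          change ((a : Ω) * (b : Ω)) = ((ψ a : Fc) : Ω) * ((ψ b : Fc) : Ω)
          rw [hψ, hψ]
        map_zero' := by
          apply Subtype.ext; apply Subtype.ext
          rw [hψ]; rfl
        map_add' := fun a b => by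
          apply Subtype.ext; apply Subtype.ext
          rw [hψ]
          change ((a : Ω) + (b : Ω)) = ((ψ a : Fc) : Ω) + ((ψ b : Fc) : Ω)
          rw [hψ, hψ] }
    refine ⟨Q.map φ', hQ.map φ', ?_⟩
    rw [eval₂_map]
    apply Fc.subtype.injective
    rw [Polynomial.hom_eval₂, map_zero]
    have hcomp : Fc.subtype.comp
        ((algebraMap (Algebra.adjoin (Rsub Fc R) ({xF G} : Set Fc)) Fc).comp φ')
        = algebraMap (polyRing R x) Ω := by
      ext c
      exact hψ c
    rw [hcomp]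
    exact hQf

include G in
/-- `R[x] ⊆ V`. -/
theorem polyRing_le_V : polyRing R x ≤ V := by
  unfold polyRing
  rw [Subring.closure_le]
  rintro c (hcR | hcx)
  · exact G.R_le_V hcR
  · rw [Set.mem_singleton_iff] at hcx
    subst hcx
    exact G.x_mem_V

include G in
/-- The chart is contained in the Gauss valuation ring. -/
theorem chart_le_V {b : Ω} (hb : b ∈ Alg.chart Fc R x) : b ∈ V := by
  obtain ⟨hbF, hbint⟩ := hb
  rcases G.V_total b hbF with h | h
  · exact h
  · exact mem_of_isIntegral_of_inv_mem V (isIntegral_of_subring_le (polyRing_le_V G) hbint) h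

include G in
/-- Divisibility by `w` in the typed chart, elementwise in `Ω`. -/
theorem wR_dvd_iff (b : chart (Rsub Fc R) ({xF G} : Set Fc)) :
    algebraMap (Rsub Fc R) (chart (Rsub Fc R) ({xF G} : Set Fc)) (wR G) ∣ b ↔
      (((b : Fc) : Ω)) * w⁻¹ ∈ V := by
  rw [H394.subalgebra_dvd_iff]
  constructor
  · rintro ⟨c, hc, h⟩
    have hcV : (c : Ω) ∈ V := chart_le_V G ((mem_chart_iff G).mp hc)
    have : (((b : Fc) : Ω)) * w⁻¹ = (c : Ω) := by
      have h' : (((b : Fc) : Ω)) = w * (c : Ω) := congrArg Subtype.val h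
      rw [h', mul_comm w, mul_assoc, mul_inv_cancel₀ G.w_ne_zero, mul_one]
    rw [this]
    exact hcV
  · intro h
    have hb : (((b : Fc) : Ω)) ∈ Alg.chart Fc R x := (mem_chart_iff G).mp b.2
    have hq := G.qep_fin _ hb h
    have hmem : (((b : Fc) : Ω)) * w⁻¹ ∈ Fc := hq.1
    refine ⟨⟨_, hmem⟩, (mem_chart_iff G).mpr hq, Subtype.ext ?_⟩
    change (((b : Fc) : Ω)) = w * ((((b : Fc) : Ω)) * w⁻¹)
    rw [mul_comm _ w⁻¹, ← mul_assoc, mul_inv_cancel₀ G.w_ne_zero, one_mul]

include G in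
/-- **(L2)** `w` is prime in the typed chart. -/
theorem prime_wR_chart :
    Prime (algebraMap (Rsub Fc R) (chart (Rsub Fc R) ({xF G} : Set Fc)) (wR G)) := by
  refine ⟨?_, ?_, ?_⟩
  · intro h
    have : ((wF G : Fc) : Ω) = 0 := by
      have h' := congrArg (fun b : chart (Rsub Fc R) ({xF G} : Set Fc) => ((b : Fc) : Ω)) h
      exact h'
    exact G.w_ne_zero this
  · intro hu
    obtain ⟨c, hc⟩ := hu.exists_right_inv
    have h1 : (w : Ω) * (((c : Fc) : Ω)) = 1 :=
      congrArg (fun b : chart (Rsub Fc R) ({xF G} : Set Fc) => ((b : Fc) : Ω)) hc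
    have hcV : (((c : Fc) : Ω)) ∈ V := chart_le_V G ((mem_chart_iff G).mp c.2)
    have : w⁻¹ = (((c : Fc) : Ω)) := (eq_inv_of_mul_eq_one_right h1).symm ▸ rfl
    exact G.w_inv_not_mem_V (this ▸ hcV)
  · intro a b hab
    rw [wR_dvd_iff] at hab ⊢
    rw [wR_dvd_iff]
    have haV : (((a : Fc) : Ω)) ∈ V := chart_le_V G ((mem_chart_iff G).mp a.2)
    have hbV : (((b : Fc) : Ω)) ∈ V := chart_le_V G ((mem_chart_iff G).mp b.2)
    have hab' : (((a : Fc) : Ω)) * (((b : Fc) : Ω)) * w⁻¹ ∈ V := hab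
    by_cases ha : (((a : Fc) : Ω))⁻¹ ∈ V
    · by_cases ha0 : (((a : Fc) : Ω)) = 0
      · left
        rw [ha0, zero_mul]
        exact V.zero_mem
      · right
        have : (((b : Fc) : Ω)) * w⁻¹
            = (((a : Fc) : Ω))⁻¹ * ((((a : Fc) : Ω)) * (((b : Fc) : Ω)) * w⁻¹) := by
          rw [mul_assoc, ← mul_assoc _ (((a : Fc) : Ω)), inv_mul_cancel₀ ha0, one_mul]
        rw [this]
        exact V.mul_mem ha hab'
    · left
      exact G.V_gen _ haV ha

end Chart

end Fermat.Agent.S18.H94
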