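import Mathlib

/-!
# S18 Route K (helper94): generic two-chart lemmas for integral closures

`R` a commutative ring, `L` a field, `x : L`.  `gChart R S` is the integral closure of `R[S]` in
`L` (as an `R`-subalgebra of `L`).  We prove the facts needed to feed the two-chart connectedness
theorem (`cech_connected` of helper558) with `B_fin = gChart R {x}`, `B_inf = gChart R {x⁻¹}`,
`B_mid = gChart R {x, x⁻¹}`:

* `exists_pow_mul_mem_gChart`  (hloc / hinf): `z ∈ B_mid → ∃ n, x ^ n * z ∈ B_fin`;
* `mem_range_of_mem_gChart_of_mem_gChart_inv` (hH0): `B_fin ∩ B_inf = R` if `x` is transcendental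
  over `R` and `R` is integrally closed in `L`;
* `dvd_of_mem_gChart` (hinj): `a ∈ R`, `a ∈ w B_fin` implies `w ∣ a`;
* `exists_finite_span_gChart` (hgen): `B_fin` is spanned over `R` by the `x ^ j * b i` for a finite
  family `b`, if the integral closure is a finite `R[x]`-module.
-/

set_option autoImplicit false

open Polynomial

namespace Fermat.Agent.S18.H94

section Chart

variable (R : Type*) [CommRing R] {L : Type*} [Field L] [Algebra R L]

/-- The integral closure of `R[S]` in `L`, as an `R`-subalgebra of `L`. -/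
def gChart (S : Set L) : Subalgebra R L where
  carrier := {x | IsIntegral (Algebra.adjoin R S) x}
  mul_mem' ha hb := ha.mul hb
  one_mem' := isIntegral_one
  add_mem' ha hb := ha.add hb
  zero_mem' := isIntegral_zero
  algebraMap_mem' a := by
    have : IsIntegral (Algebra.adjoin R S)
        (algebraMap (Algebra.adjoin R S) L (algebraMap R (Algebra.adjoin R S) a)) :=
      isIntegral_algebraMap
    simpa [← IsScalarTower.algebraMap_apply] using this

variable {R}

theorem mem_gChart_iff {S : Set L} {x : L} :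
    x ∈ gChart R S ↔ IsIntegral (Algebra.adjoin R S) x := Iff.rfl

theorem adjoin_le_gChart (S : Set L) : Algebra.adjoin R S ≤ gChart R S := fun x hx => by
  rw [mem_gChart_iff]
  exact isIntegral_algebraMap (x := (⟨x, hx⟩ : Algebra.adjoin R S))

theorem subset_gChart (S : Set L) : S ⊆ (gChart R S : Set L) := fun _ hx =>
  adjoin_le_gChart S (Algebra.subset_adjoin hx)

theorem gChart_mono {S S' : Set L} (h : S ⊆ S') : gChart R S ≤ gChart R S' := by
  intro x hx
  rw [mem_gChart_iff] at hx ⊢
  exact hx.map_of_comp_eq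
    (Subalgebra.inclusion (Algebra.adjoin_mono h)).toRingHom (RingHom.id L) (by ext; rfl)

theorem exists_pow_mul_mem_adjoin' {S : Set L} {s : L} (hs : s ∈ S) (hs0 : s ≠ 0) {x : L}
    (hx : x ∈ Algebra.adjoin R (insert s⁻¹ S)) : ∃ n : ℕ, s ^ n * x ∈ Algebra.adjoin R S := by
  have hsA : s ∈ Algebra.adjoin R S := Algebra.subset_adjoin hs
  induction hx using Algebra.adjoin_induction with
  | mem y hy =>
    rcases hy with rfl | hy
    · exact ⟨1, by rw [pow_one, mul_inv_cancel₀ hs0]; exact one_mem _⟩
    · exact ⟨0, by rw [pow_zero, one_mul]; exact Algebra.subset_adjoin hy⟩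
  | algebraMap a => exact ⟨0, by rw [pow_zero, one_mul]; exact Subalgebra.algebraMap_mem _ a⟩
  | add y z _ _ hy hz =>
    obtain ⟨m, hm⟩ := hy
    obtain ⟨n, hn⟩ := hz
    refine ⟨m + n, ?_⟩
    have : s ^ (m + n) * (y + z) = s ^ n * (s ^ m * y) + s ^ m * (s ^ n * z) := by ring
    rw [this]
    exact add_mem (mul_mem (pow_mem hsA n) hm) (mul_mem (pow_mem hsA m) hn)
  | mul y z _ _ hy hz =>
    obtain ⟨m, hm⟩ := hy
    obtain ⟨n, hn⟩ := hz
    refine ⟨m + n, ?_⟩
    have : s ^ (m + n) * (y * z) = (s ^ m * y) * (s ^ n * z) := by ring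
    rw [this]
    exact mul_mem hm hn

/-- **hloc**: an element integral over `R[S, s⁻¹]` becomes integral over `R[S]` after
multiplication by a power of `s ∈ S`. -/
theorem exists_pow_mul_mem_gChart {S : Set L} {s : L} (hs : s ∈ S) (hs0 : s ≠ 0) {x : L}
    (hx : x ∈ gChart R (insert s⁻¹ S)) : ∃ n : ℕ, s ^ n * x ∈ gChart R S := by
  classical
  obtain ⟨p, hmonic, hroot⟩ := mem_gChart_iff.mp hx
  have hcoeff : ∀ i, ∃ n : ℕ, s ^ n * (p.coeff i : L) ∈ Algebra.adjoin R S :=
    fun i => exists_pow_mul_mem_adjoin' hs hs0 (p.coeff i).2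
  choose n hn using hcoeff
  set M : ℕ := ∑ i ∈ Finset.range (p.natDegree + 1), n i with hM
  have hnM : ∀ i ≤ p.natDegree, n i ≤ M := fun i hi =>
    Finset.single_le_sum (f := n) (fun _ _ => Nat.zero_le _)
      (Finset.mem_range.mpr (Nat.lt_succ_of_le hi))
  set q : L[X] := (p.map (algebraMap (Algebra.adjoin R (insert s⁻¹ S)) L)).scaleRoots (s ^ M)
    with hq
  have hqmonic : q.Monic := (Polynomial.monic_scaleRoots_iff _).mpr (hmonic.map _)
  have hqroot : q.eval (s ^ M * x) = 0 := by
    rw [hq, Polynomial.scaleRoots_eval_mul, Polynomial.eval_map, hroot, mul_zero]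
  have hqcoeff : ∀ i, q.coeff i ∈ Algebra.adjoin R S := by
    intro i
    rw [hq, Polynomial.coeff_scaleRoots, Polynomial.coeff_map, hmonic.natDegree_map]
    by_cases hi : i < p.natDegree
    · have hle : n i ≤ M * (p.natDegree - i) := by
        calc n i ≤ M := hnM i hi.le
          _ = M * 1 := (mul_one M).symm
          _ ≤ M * (p.natDegree - i) := Nat.mul_le_mul_left M (Nat.one_le_iff_ne_zero.mpr (by omega))
      obtain ⟨k, hk⟩ := Nat.exists_eq_add_of_le hle
      have : (s ^ M) ^ (p.natDegree - i) = s ^ k * s ^ n i := by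
        rw [← pow_mul, hk, pow_add, mul_comm]
      rw [this, Subalgebra.algebraMap_def, Algebra.algebraMap_self_apply,
        show (p.coeff i : L) * (s ^ k * s ^ n i) = s ^ k * (s ^ n i * (p.coeff i : L)) by ring]
      exact mul_mem (pow_mem (Algebra.subset_adjoin hs) k) (hn i)
    · rcases (not_lt.mp hi).lt_or_eq with hlt | heq
      · rw [Polynomial.coeff_eq_zero_of_natDegree_lt hlt, map_zero, zero_mul]
        exact zero_mem _
      · rw [← heq, hmonic.coeff_natDegree, map_one, one_mul, Nat.sub_self, pow_zero]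
        exact one_mem _
  have hlifts : q ∈ Polynomial.lifts (algebraMap (Algebra.adjoin R S) L) :=
    (Polynomial.lifts_iff_coeff_lifts q).mpr fun i => ⟨⟨q.coeff i, hqcoeff i⟩, rfl⟩
  obtain ⟨q', hq'q, -, hq'monic⟩ := Polynomial.lifts_and_natDegree_eq_and_monic hlifts hqmonic
  refine ⟨M, mem_gChart_iff.mpr ⟨q', hq'monic, ?_⟩⟩
  rw [Polynomial.eval₂_eq_eval_map, hq'q, hqroot]

end Chart

end Fermat.Agent.S18.H94
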