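import Fermat.Agent.S18.H94.Chart

/-!
# S18 Route K (helper94): two charts of integral closures — intersection, divisibility, generation

Mathlib-only.  `R` integrally closed domain, `L` a field, `x : L` transcendental over `R`.

* `mem_range_of_mem_adjoin_of_mem_adjoin_inv` : `R[x] ∩ R[x⁻¹] = R`.
* `minpoly_map_eq_of_scaled` : scaling lemma for minimal polynomials over an integrally closed
  subalgebra.
* `isIntegral_of_mem_gChart_of_mem_gChart_inv` : integral over `R[x]` and over `R[x⁻¹]` implies
  integral over `R`;  `mem_range_of_mem_gChart_of_mem_gChart_inv` (**hH0**).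
* `mem_adjoin_of_mul_eq`, `dvd_of_mem_gChart` (**hinj**).
* `exists_finite_span_gChart` (**hgen**).
-/

set_option autoImplicit false

open Polynomial

namespace Fermat.Agent.S18.H94

section Inter

variable {R : Type*} [CommRing R] {L : Type*} [Field L] [Algebra R L]

theorem ne_zero_of_transcendental {x : L} (hx : Transcendental R x) : x ≠ 0 := by
  have : Nontrivial R := (algebraMap R L).domain_nontrivial
  rintro rfl
  exact hx ⟨X, X_ne_zero, by simp⟩

/-- `R[x] ∩ R[x⁻¹] = R` for `x` transcendental over `R`. -/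
theorem mem_range_of_mem_adjoin_of_mem_adjoin_inv {x : L} (hx : Transcendental R x) {c : L}
    (h1 : c ∈ Algebra.adjoin R {x}) (h2 : c ∈ Algebra.adjoin R {x⁻¹}) :
    c ∈ Set.range (algebraMap R L) := by
  have hx0 : x ≠ 0 := ne_zero_of_transcendental hx
  rw [Algebra.adjoin_singleton_eq_range_aeval] at h1 h2
  obtain ⟨P, rfl⟩ := h1
  obtain ⟨Q, hQ⟩ := h2
  replace hQ : aeval x⁻¹ Q = aeval x P := hQ
  let _ : Invertible (x⁻¹) := ⟨x, mul_inv_cancel₀ hx0, inv_mul_cancel₀ hx0⟩
  set n := Q.natDegree with hn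
  have h := eval₂_reflect_mul_pow (algebraMap R L) (x⁻¹) n Q le_rfl
  have hinv : ⅟(x⁻¹) = x := rfl
  rw [hinv] at h
  have key : aeval x (P * X ^ n) = aeval x (reflect n Q) := by
    rw [map_mul, map_pow, aeval_X, ← hQ, aeval_def, aeval_def, ← h, mul_assoc, ← mul_pow,
      inv_mul_cancel₀ hx0, one_pow, mul_one]
  have hPQ : P * X ^ n = reflect n Q := transcendental_iff_injective.mp hx key
  have hcoeff : ∀ k, 1 ≤ k → Q.coeff k = 0 := by
    intro k hk
    by_cases hkn : k ≤ n
    · have h1 := congrArg (fun p => p.coeff (n - k)) hPQ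
      simp only [coeff_reflect] at h1
      rw [coeff_mul_X_pow', if_neg (by omega)] at h1
      rw [revAt_le (Nat.sub_le n k), Nat.sub_sub_self hkn] at h1
      exact h1.symm
    · exact coeff_eq_zero_of_natDegree_lt (by omega)
  have hQC : Q = C (Q.coeff 0) := by
    ext k
    rcases Nat.eq_zero_or_pos k with rfl | hk
    · simp
    · rw [hcoeff k hk, coeff_C, if_neg (by omega)]
  refine ⟨Q.coeff 0, ?_⟩
  show algebraMap R L (Q.coeff 0) = (aeval x) P
  rw [← hQ, hQC, aeval_C, coeff_C_zero]

end Inter

end Fermat.Agent.S18.H94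

namespace Fermat.Agent.S18.H94

section Compare

variable {R : Type*} [CommRing R] {L : Type*} [Field L] [Algebra R L]

/-- Scaling lemma: if `M ∈ L[T]` is monic with root `z` and its coefficients lie in `A` after
multiplication by powers of `s ∈ A`, then `deg (minpoly A z) ≤ deg M`, with equality only if
`M` is the minimal polynomial. -/
theorem minpoly_map_eq_of_scaled (A : Subalgebra R L) [IsIntegrallyClosed A] {s : L} (hs : s ∈ A)
    (hs0 : s ≠ 0) {z : L} (hz : IsIntegral A z) {M : L[X]} (hM : M.Monic) (hMz : M.eval z = 0)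
    (hcoeff : ∀ i, ∃ n : ℕ, s ^ n * M.coeff i ∈ A) :
    (minpoly A z).degree ≤ M.degree ∧
      (M.degree ≤ (minpoly A z).degree → (minpoly A z).map (algebraMap A L) = M) := by
  classical
  choose n hn using hcoeff
  set N : ℕ := ∑ i ∈ Finset.range (M.natDegree + 1), n i with hN
  have hnN : ∀ i ≤ M.natDegree, n i ≤ N := fun i hi =>
    Finset.single_le_sum (f := n) (fun _ _ => Nat.zero_le _)
      (Finset.mem_range.mpr (Nat.lt_succ_of_le hi))
  set q : L[X] := C (s ^ N) * M with hq
  have hsN : s ^ N ≠ 0 := pow_ne_zero N hs0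
  have hq0 : q ≠ 0 := mul_ne_zero (by simpa using hsN) hM.ne_zero
  have hqdeg : q.degree = M.degree := by
    rw [hq, degree_C_mul hsN]
  have hqcoeff : ∀ i, q.coeff i ∈ A := by
    intro i
    rw [hq, coeff_C_mul]
    by_cases hi : i ≤ M.natDegree
    · obtain ⟨k, hk⟩ := Nat.exists_eq_add_of_le (hnN i hi)
      rw [hk, pow_add, mul_comm (s ^ n i), mul_assoc]
      exact mul_mem (pow_mem hs k) (hn i)
    · rw [coeff_eq_zero_of_natDegree_lt (not_le.mp hi), mul_zero]
      exact zero_mem _
  have hlifts : q ∈ Polynomial.lifts (algebraMap A L) :=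
    (Polynomial.lifts_iff_coeff_lifts q).mpr fun i => ⟨⟨q.coeff i, hqcoeff i⟩, rfl⟩
  obtain ⟨p, hpq, hpdeg⟩ := Polynomial.exists_degree_eq_of_mem_lifts hlifts
  have hp0 : p ≠ 0 := by
    rintro rfl
    rw [Polynomial.map_zero] at hpq
    exact hq0 hpq.symm
  have hpz : aeval z p = 0 := by
    rw [aeval_def, eval₂_eq_eval_map, hpq, hq, eval_mul, hMz, mul_zero]
  have hdvd : minpoly A z ∣ p := minpoly.isIntegrallyClosed_dvd hz hpz
  have hle : (minpoly A z).degree ≤ M.degree := by
    rw [← hqdeg, ← hpdeg]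
    exact degree_le_of_dvd hdvd hp0
  refine ⟨hle, fun hge => ?_⟩
  obtain ⟨c, hc⟩ := hdvd
  have hdeg : (minpoly A z).degree = p.degree := by
    rw [hpdeg, hqdeg]; exact le_antisymm hle hge
  have hc0 : c ≠ 0 := by
    rintro rfl
    rw [mul_zero] at hc
    exact hp0 hc
  have hcdeg : c.degree = 0 := by
    have h1 := congrArg natDegree hc
    rw [natDegree_mul (minpoly.ne_zero hz) hc0] at h1
    have h2 : (minpoly A z).natDegree = p.natDegree := natDegree_eq_of_degree_eq hdeg
    have h3 : c.natDegree = 0 := by omega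
    rw [degree_eq_natDegree hc0, h3]
    rfl
  obtain ⟨a, ha⟩ : ∃ a : A, c = C a := ⟨c.coeff 0, eq_C_of_degree_eq_zero hcdeg⟩
  have hmap : C (s ^ N) * M = (minpoly A z).map (algebraMap A L) * C (algebraMap A L a) := by
    rw [← hq, ← hpq, hc, ha, Polynomial.map_mul, Polynomial.map_C]
  have hlc := congrArg leadingCoeff hmap
  rw [leadingCoeff_mul, leadingCoeff_mul, leadingCoeff_C, leadingCoeff_C, hM.leadingCoeff,
    ((minpoly.monic hz).map _).leadingCoeff, mul_one, one_mul] at hlc
  have hmap' : C (s ^ N) * M = C (s ^ N) * (minpoly A z).map (algebraMap A L) := by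
    rw [hmap, hlc, mul_comm]
  exact (mul_left_cancel₀ (C_ne_zero.mpr hsN) hmap').symm

end Compare

end Fermat.Agent.S18.H94

namespace Fermat.Agent.S18.H94

section Main

theorem transcendental_inv {R : Type*} [CommRing R] {L : Type*} [Field L] [Algebra R L]
    {x : L} (hx : Transcendental R x) : Transcendental R x⁻¹ := by
  rw [Transcendental, IsAlgebraic.inv_iff]
  exact hx

variable {R : Type*} [CommRing R] [IsDomain R] [IsIntegrallyClosed R]
  {L : Type*} [Field L] [Algebra R L]

theorem isIntegrallyClosed_adjoin_singleton {x : L} (hx : Transcendental R x) :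
    IsIntegrallyClosed (Algebra.adjoin R {x}) :=
  IsIntegrallyClosed.of_equiv (Polynomial.algEquivOfTranscendental R x hx).toRingEquiv

/-- An element integral over `R[x]` and over `R[x⁻¹]` (`x` transcendental over the integrally
closed domain `R`) is integral over `R`. -/
theorem isIntegral_of_mem_gChart_of_mem_gChart_inv {x : L} (hx : Transcendental R x) {z : L}
    (h1 : z ∈ gChart R {x}) (h2 : z ∈ gChart R {x⁻¹}) : IsIntegral R z := by
  have hx0 : x ≠ 0 := ne_zero_of_transcendental hx
  have hx' : Transcendental R x⁻¹ := transcendental_inv hx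
  have := isIntegrallyClosed_adjoin_singleton hx
  have := isIntegrallyClosed_adjoin_singleton hx'
  rw [mem_gChart_iff] at h1 h2
  set A₁ := Algebra.adjoin R {x} with hA₁
  set A₂ := Algebra.adjoin R {x⁻¹} with hA₂
  set M₁ : L[X] := (minpoly A₁ z).map (algebraMap A₁ L) with hM₁
  set M₂ : L[X] := (minpoly A₂ z).map (algebraMap A₂ L) with hM₂
  have hM₁m : M₁.Monic := (minpoly.monic h1).map _
  have hM₂m : M₂.Monic := (minpoly.monic h2).map _
  have hM₁z : M₁.eval z = 0 := by
    rw [hM₁, eval_map, ← aeval_def]; exact minpoly.aeval A₁ z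
  have hM₂z : M₂.eval z = 0 := by
    rw [hM₂, eval_map, ← aeval_def]; exact minpoly.aeval A₂ z
  have hd₁ : M₁.degree = (minpoly A₁ z).degree := (minpoly.monic h1).degree_map _
  have hd₂ : M₂.degree = (minpoly A₂ z).degree := (minpoly.monic h2).degree_map _
  have hc₂ : ∀ i, ∃ n : ℕ, x ^ n * M₂.coeff i ∈ A₁ := by
    intro i
    rw [hM₂, coeff_map]
    refine exists_pow_mul_mem_adjoin' (S := {x}) (Set.mem_singleton x) hx0 ?_
    exact Algebra.adjoin_mono (by simp) ((minpoly A₂ z).coeff i).2
  have hc₁ : ∀ i, ∃ n : ℕ, x⁻¹ ^ n * M₁.coeff i ∈ A₂ := by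
    intro i
    rw [hM₁, coeff_map]
    refine exists_pow_mul_mem_adjoin' (S := {x⁻¹}) (Set.mem_singleton x⁻¹) (inv_ne_zero hx0) ?_
    rw [inv_inv]
    exact Algebra.adjoin_mono (by simp) ((minpoly A₁ z).coeff i).2
  obtain ⟨hle₁, heq₁⟩ := minpoly_map_eq_of_scaled A₁ (Algebra.self_mem_adjoin_singleton R x) hx0
    h1 hM₂m hM₂z hc₂
  obtain ⟨hle₂, -⟩ := minpoly_map_eq_of_scaled A₂ (Algebra.self_mem_adjoin_singleton R x⁻¹)
    (inv_ne_zero hx0) h2 hM₁m hM₁z hc₁
  have hMM : M₁ = M₂ := heq₁ (by rw [hd₂]; rw [hd₁] at hle₂; exact hle₂)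
  have hcoeff : ∀ i, M₁.coeff i ∈ Set.range (algebraMap R L) := by
    intro i
    refine mem_range_of_mem_adjoin_of_mem_adjoin_inv hx ?_ ?_
    · rw [hM₁, coeff_map]; exact ((minpoly A₁ z).coeff i).2
    · rw [hMM, hM₂, coeff_map]; exact ((minpoly A₂ z).coeff i).2
  have hlifts : M₁ ∈ Polynomial.lifts (algebraMap R L) :=
    (Polynomial.lifts_iff_coeff_lifts M₁).mpr hcoeff
  obtain ⟨q, hq, -, hqm⟩ := Polynomial.lifts_and_natDegree_eq_and_monic hlifts hM₁m
  exact ⟨q, hqm, by rw [eval₂_eq_eval_map, hq, hM₁z]⟩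

/-- **hH0**: `B_fin ∩ B_inf = R` when `R` is integrally closed in `L`. -/
theorem mem_range_of_mem_gChart_of_mem_gChart_inv {x : L} (hx : Transcendental R x)
    (hR : ∀ z : L, IsIntegral R z → z ∈ Set.range (algebraMap R L)) {z : L}
    (h1 : z ∈ gChart R {x}) (h2 : z ∈ gChart R {x⁻¹}) : z ∈ Set.range (algebraMap R L) :=
  hR z (isIntegral_of_mem_gChart_of_mem_gChart_inv hx h1 h2)

end Main

end Fermat.Agent.S18.H94

namespace Fermat.Agent.S18.H94

section Inj

variable {R : Type*} [CommRing R] [IsDomain R] [IsIntegrallyClosed R]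
  {L : Type*} [Field L] [Algebra R L]

/-- An element of `L` which is integral over `R[x]` and satisfies `w * t = a` with `a, w ∈ R`,
`w ≠ 0`, lies in `R[x]`. -/
theorem mem_adjoin_of_mul_eq {x : L} (hx : Transcendental R x) {a w : R} (hw : w ≠ 0) {t : L}
    (ht : t ∈ gChart R {x}) (h : algebraMap R L a = algebraMap R L w * t) :
    t ∈ Algebra.adjoin R {x} := by
  have := isIntegrallyClosed_adjoin_singleton hx
  rw [mem_gChart_iff] at ht
  set A₁ := Algebra.adjoin R {x} with hA₁
  have hinj : Function.Injective (algebraMap R L) := by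
    intro r s hrs
    have := transcendental_iff_injective.mp hx (a₁ := C r) (a₂ := C s) (by simpa using hrs)
    exact C_injective this
  set p : A₁[X] := C (algebraMap R A₁ w) * X - C (algebraMap R A₁ a) with hp
  have hpz : aeval t p = 0 := by
    rw [hp, map_sub, map_mul, aeval_C, aeval_C, aeval_X, ← IsScalarTower.algebraMap_apply,
      ← IsScalarTower.algebraMap_apply, h, sub_self]
  have hw' : algebraMap R A₁ w ≠ 0 := by
    intro h0
    have h1 : algebraMap R L w = 0 := by
      rw [IsScalarTower.algebraMap_apply R A₁ L, h0, map_zero]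
    exact hw (hinj (by rw [h1, map_zero]))
  have hp' : p = C (algebraMap R A₁ w) * X + C (-(algebraMap R A₁ a)) := by
    rw [hp, C_neg, sub_eq_add_neg]
  have hpdeg : p.natDegree = 1 := by rw [hp']; exact natDegree_linear hw'
  have hp0 : p ≠ 0 := fun h0 => by rw [h0] at hpdeg; simp at hpdeg
  have hdvd : minpoly A₁ t ∣ p := minpoly.isIntegrallyClosed_dvd ht hpz
  have hle : (minpoly A₁ t).natDegree ≤ 1 := hpdeg ▸ natDegree_le_of_dvd hdvd hp0
  have hpos : 0 < (minpoly A₁ t).natDegree := minpoly.natDegree_pos ht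
  have hone : (minpoly A₁ t).natDegree = 1 := le_antisymm hle hpos
  have hform := eq_X_add_C_of_natDegree_le_one hle
  have hlc : (minpoly A₁ t).coeff 1 = 1 := by
    have := (minpoly.monic ht).coeff_natDegree
    rwa [hone] at this
  have hz := minpoly.aeval A₁ t
  rw [hform, hlc, map_one, one_mul, map_add, aeval_X, aeval_C] at hz
  have : t = -(algebraMap A₁ L ((minpoly A₁ t).coeff 0)) := eq_neg_of_add_eq_zero_left hz
  rw [this]
  exact neg_mem ((minpoly A₁ t).coeff 0).2

/-- **hinj**: if `a ∈ R` is divisible by `w` in `B_fin` then it is divisible by `w` in `R`. -/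
theorem dvd_of_mem_gChart {x : L} (hx : Transcendental R x) {a w : R} {t : L}
    (ht : t ∈ gChart R {x}) (h : algebraMap R L a = algebraMap R L w * t) : w ∣ a := by
  have hinj : Function.Injective (algebraMap R L) := by
    intro r s hrs
    have := transcendental_iff_injective.mp hx (a₁ := C r) (a₂ := C s) (by simpa using hrs)
    exact C_injective this
  by_cases hw : w = 0
  · subst hw
    rw [map_zero, zero_mul] at h
    have : a = 0 := hinj (by rw [h, map_zero])
    rw [this]
  · have hmem := mem_adjoin_of_mul_eq hx hw ht h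
    rw [Algebra.adjoin_singleton_eq_range_aeval] at hmem
    obtain ⟨P, rfl⟩ := hmem
    have h2 : aeval x (C a) = aeval x (C w * P) := by
      rw [aeval_C, map_mul, aeval_C]
      exact h
    have h3 : C a = C w * P := transcendental_iff_injective.mp hx h2
    refine ⟨P.coeff 0, ?_⟩
    have := congrArg (fun p => p.coeff 0) h3
    simpa using this

end Inj

section Gen

variable {R : Type*} [CommRing R] {L : Type*} [Field L] [Algebra R L]

/-- **hgen**: if the integral closure of `R[x]` in `L` is a finite `R[x]`-module, then it is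
spanned over `R` by the elements `x ^ j * b i` for a finite family `b`. -/
theorem exists_finite_span_gChart (x : L)
    [Module.Finite (Algebra.adjoin R {x}) (integralClosure (Algebra.adjoin R {x}) L)] :
    ∃ (n : ℕ) (b : Fin n → L), (∀ i, b i ∈ gChart R {x}) ∧
      ∀ z ∈ gChart R {x},
        z ∈ Submodule.span R {y : L | ∃ (j : ℕ) (i : Fin n), y = x ^ j * b i} := by
  obtain ⟨n, s, hs⟩ := Module.Finite.exists_fin (R := Algebra.adjoin R {x})
    (M := integralClosure (Algebra.adjoin R {x}) L)
  refine ⟨n, fun i => (s i : L), fun i => (s i).2, fun z hz => ?_⟩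
  set W : Submodule R L := Submodule.span R {y : L | ∃ (j : ℕ) (i : Fin n), y = x ^ j * (s i : L)}
    with hW
  have hxW : ∀ y ∈ W, x * y ∈ W := by
    intro y hy
    induction hy using Submodule.span_induction with
    | mem y hy =>
      obtain ⟨j, i, rfl⟩ := hy
      exact Submodule.subset_span ⟨j + 1, i, by ring⟩
    | zero => simp
    | add y y' _ _ hy hy' => rw [mul_add]; exact W.add_mem hy hy'
    | smul r y _ hy => rw [mul_smul_comm]; exact W.smul_mem r hy
  have hAW : ∀ a ∈ Algebra.adjoin R {x}, ∀ y ∈ W, a * y ∈ W := by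
    intro a ha
    induction ha using Algebra.adjoin_induction with
    | mem a ha =>
      rw [Set.mem_singleton_iff] at ha
      subst ha
      exact hxW
    | algebraMap r =>
      intro y hy
      rw [← Algebra.smul_def]
      exact W.smul_mem r hy
    | add a a' _ _ ha ha' =>
      intro y hy
      rw [add_mul]
      exact W.add_mem (ha y hy) (ha' y hy)
    | mul a a' _ _ ha ha' =>
      intro y hy
      rw [mul_assoc]
      exact ha _ (ha' y hy)
  have hmem : (⟨z, hz⟩ : integralClosure (Algebra.adjoin R {x}) L) ∈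
      Submodule.span (Algebra.adjoin R {x}) (Set.range s) := by
    rw [hs]; exact Submodule.mem_top
  obtain ⟨c, hc⟩ := (Submodule.mem_span_range_iff_exists_fun _).mp hmem
  have hz' : z = ∑ i, (c i : L) * (s i : L) := by
    have := congrArg (fun y : integralClosure (Algebra.adjoin R {x}) L => (y : L)) hc
    simp only [AddSubmonoidClass.coe_finsetSum] at this
    rw [← this]
    rfl
  rw [hz']
  refine W.sum_mem fun i _ => hAW _ (c i).2 _ (Submodule.subset_span ⟨0, i, by simp⟩)

end Gen

end Fermat.Agent.S18.H94
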