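import Fermat.Agent.S18.H94.AlgTypes
import Fermat.Agent.S18.H394.KummerRegular
import Fermat.Agent.S18.H425.GoodModelInv
import Fermat.Agent.S18.H438.Front.Regular

/-!
# S18 / node_alg CLOSED (helper94, finisher): `Alg.AlgMainStatement` (interface v4)

`algMain Lc x S 𝓕 : Alg.AlgMainStatement Lc x S 𝓕` for ALL arguments — this is `node_alg`
(`Mod.AlgStatement M` is the instance `Ω = F_M`).

Composition:
* typed core            `H394.kummer_charts_of_regular`   (helper394),
* both charts           `H138.chart` (helper138), chart at infinity = chart of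
                        `H425.goodModel_inv G` (helper425),
* `ϖ` prime, `R₀` DVR, `hRF`, transcendence, finiteness : `H94/AlgTypes.lean`, `H94/AlgConst.lean`,
* `OneModPi`, `DivisibleDivisor`, `RegularAlong` on the chart of an arbitrary good model:
  `H438.GoodModelFront.{oneModPi_chart, divisibleDivisor_chart, regularAlong_chart}` (helper438;
  b2 = `B12.H33` (helper33 squad), hNC = `H754`/`H213`, hsep = `H425`).
-/

set_option autoImplicit false
set_option linter.style.haveILetI false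

noncomputable section

namespace Fermat.Agent.S18.H94

open Fermat.Agent.S18.Alg Polynomial
open Fermat.Agent.S18.H138 (chart baseField)

variable {Ω : Type*} [Field Ω] {Lc : Subfield Ω}

/-- Final composition of `node_alg`, pieces as hypotheses (`hdiv` may use `u ≡ 1 mod w`). -/
theorem algMain_of_pieces2
    (hone : ∀ {Ec Fc : Subfield Ω} {R V : Subring Ω} {w x : Ω} {S : Finset Ω}
      (G : GoodModel Lc Ec Fc R V w x S) (u : Fc), ((u : Ω) - 1) * w⁻¹ ∈ V →
        H754.OneModPi (algebraMap (Rsub Fc R) (chart (Rsub Fc R) ({xF G} : Set Fc)) (wR G)) u)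
    (hdiv : ∀ {Ec Fc : Subfield Ω} {R V : Subring Ω} {w x : Ω} {S : Finset Ω}
      (G : GoodModel Lc Ec Fc R V w x S) (m : ℕ) (_ : m.Prime) (u : Fc) (_ : u ≠ 0),
        ((u : Ω) - 1) * w⁻¹ ∈ V →
        (∀ O : ValuationSubring Ω, (∀ a ∈ Lc, a ∈ O) →
          ∃ t : Ω, t ≠ 0 ∧ (u : Ω) * t ^ m ∈ O ∧ ((u : Ω) * t ^ m)⁻¹ ∈ O) →
        H754.DivisibleDivisor (chart (Rsub Fc R) ({xF G} : Set Fc)) m u)
    (hreg : ∀ {Ec Fc : Subfield Ω} {R V : Subring Ω} {w x : Ω} {S : Finset Ω}
      (G : GoodModel Lc Ec Fc R V w x S),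
        H754.RegularAlong (algebraMap (Rsub Fc R) (chart (Rsub Fc R) ({xF G} : Set Fc)) (wR G)))
    (x : Ω) (S : Finset Ω) (𝓕 : Set (Model Ω)) : AlgMainStatement Lc x S 𝓕 := by
  classical
  intro h𝓕 p hp m hm hmR u hu hu0 hu1 hval
  obtain ⟨Ec, Fc, R, V, w⟩ := p
  have G : GoodModel Lc Ec Fc R V w x S := h𝓕.good _ hp
  have G' := H425.goodModel_inv G
  change ((m : Ω))⁻¹ ∈ R at hmR
  change u ∈ Fc at hu
  change (u - 1) * w⁻¹ ∈ V at hu1
  haveI := G.charZero
  haveI : IsDiscreteValuationRing (Rsub Fc R) := isDVR_Rsub G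
  haveI : CharZero Fc := charZero_Fc G
  haveI : FiniteDimensional (baseField (Rsub Fc R) (xF G)) Fc := finiteDimensional_xF G
  have hmΩ : (m : Ω) ≠ 0 := Nat.cast_ne_zero.mpr hm.ne_zero
  let uF : Fc := ⟨u, hu⟩
  have huF0 : uF ≠ 0 := fun h => hu0 (congrArg Subtype.val h)
  let ν : Rsub Fc R := ⟨⟨(m : Ω)⁻¹, R_le_Fc G hmR⟩, hmR⟩
  have hν : ν * (m : Rsub Fc R) = 1 := by
    apply Subtype.ext
    apply Subtype.ext
    change (m : Ω)⁻¹ * (((m : Rsub Fc R) : Fc) : Ω) = 1
    have : ((((m : Rsub Fc R) : Fc) : Ω)) = (m : Ω) := by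
      simp
    rw [this, inv_mul_cancel₀ hmΩ]
  have hxinv : xF G' = (xF G)⁻¹ := Subtype.ext rfl
  have hw1 : Prime (algebraMap (Rsub Fc R) (chart (Rsub Fc R) ({(xF G)⁻¹} : Set Fc)) (wR G)) := by
    have h := prime_wR_chart G'
    rw [hxinv] at h
    exact h
  have hreg1 : H754.RegularAlong
      (algebraMap (Rsub Fc R) (chart (Rsub Fc R) ({(xF G)⁻¹} : Set Fc)) (wR G)) := by
    have h := hreg G'
    rw [hxinv] at h
    exact h
  have hone1 : H754.OneModPi
      (algebraMap (Rsub Fc R) (chart (Rsub Fc R) ({(xF G)⁻¹} : Set Fc)) (wR G)) uF := by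
    have h := hone G' uF hu1
    rw [hxinv] at h
    exact h
  have hdiv1 : H754.DivisibleDivisor (chart (Rsub Fc R) ({(xF G)⁻¹} : Set Fc)) m uF := by
    have h := hdiv G' m hm uF huF0 hu1 hval
    rw [hxinv] at h
    exact h
  obtain ⟨r, a, y, hr0, huy⟩ := H394.kummer_charts_of_regular (R := Rsub Fc R) (F := Fc)
    hinjR (hRF G) (transcendental_xF G) (wR G) m hm ν hν uF huF0
    (prime_wR_chart G) hw1 (hreg G) hreg1 (hone G uF hu1) hone1
    (hdiv G m hm uF huF0 hu1 hval) hdiv1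
  have hrΩ : (((r : Fc) : Ω)) ≠ 0 := fun h => hr0 (Subtype.ext (Subtype.ext h))
  refine ⟨(y : Ω), (((r : Fc) : Ω)) ^ a, ?_, zpow_ne_zero a hrΩ, ?_⟩
  · exact zpow_mem (G.E_le_L (G.R_le r.2)) a
  · have h := congrArg Fc.subtype huy
    rw [map_mul, map_zpow₀, map_pow] at h
    exact h

/-- **`node_alg`: the ALG main statement (interface v4), for all arguments.** -/
theorem algMain (Lc : Subfield Ω) (x : Ω) (S : Finset Ω) (𝓕 : Set (Model Ω)) :
    AlgMainStatement Lc x S 𝓕 :=
  algMain_of_pieces2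
    (fun G _ hu => H438.GoodModelFront.oneModPi_chart G hu)
    (fun G _ _ _ _ hu hval => H438.GoodModelFront.divisibleDivisor_chart G hu hval)
    (fun G => H438.GoodModelFront.regularAlong_chart G)
    x S 𝓕

end Fermat.Agent.S18.H94
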