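import Fermat.Agent.S18.Mod.Defs
import Fermat.Agent.S18.H94.NodeAlg

/-!
# S18 / `node_alg` in the exact type of the skeleton (helper94)

`node_alg M : Mod.AlgStatement M` — the open node `node_alg` of
`Fermat/Agent/S18/Integ/Skeleton.lean` / `H984.s18_of_mod_alg`, closed by `H94.algMain`.
-/

set_option autoImplicit false

namespace Fermat.Agent.S18.H94

/-- **`node_alg`**, exact skeleton type. -/
theorem node_alg (M : ℕ) : Mod.AlgStatement M :=
  fun Lc x S 𝓕 => algMain Lc x S 𝓕

end Fermat.Agent.S18.H94
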