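import Fermat.Agent.S18.H94.Unfold

/-!
# S18 (helper94): reduction of the frozen statement to a statement about `q`-expansions

Using hypotheses (ii) (compatibility of `r` with divisors of integral functions) and (iii)
(principal divisors are generated by integral ones) of `ReductionInputsModL`, the frozen statement
S18 is reduced to `QCore N A m` — a statement that no longer mentions the place map `r` —
together with `ConstOfOrdZero` (a function without zeros and poles is constant).
-/

set_option autoImplicit false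
set_option synthInstance.maxHeartbeats 400000

open ModularCurve AlgebraicCurve HahnSeries IsLocalRing

namespace Fermat.Agent.S18.H94

noncomputable section

variable {N : ℕ} {A : ValuationSubring (AlgebraicClosure ℚ)}

/-! ### Generalities on `ord` -/

section Ord

variable {K F : Type*} [Field K] [Field F] [Algebra K F]

theorem ord_algebraMap (v : Place K F) {c : K} (hc : c ≠ 0) : v.ord (algebraMap K F c) = 0 := by
  have h1 : algebraMap K F c ∈ v.toValuationSubring := v.algebraMap_mem' c
  have h2 : algebraMap K F c⁻¹ ∈ v.toValuationSubring := v.algebraMap_mem' c⁻¹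
  let u : (v.toValuationSubring)ˣ :=
    { val := ⟨algebraMap K F c, h1⟩
      inv := ⟨algebraMap K F c⁻¹, h2⟩
      val_inv := by
        apply Subtype.ext
        show algebraMap K F c * algebraMap K F c⁻¹ = 1
        rw [← map_mul, mul_inv_cancel₀ hc, map_one]
      inv_val := by
        apply Subtype.ext
        show algebraMap K F c⁻¹ * algebraMap K F c = 1
        rw [← map_mul, inv_mul_cancel₀ hc, map_one] }
  exact v.ord_coe_unit u

theorem ord_pow (v : Place K F) (f : F) (n : ℕ) : v.ord (f ^ n) = n * v.ord f := by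
  have := v.ord_zpow f (n : ℤ)
  simpa using this

theorem ord_div (v : Place K F) {f g : F} (hf : f ≠ 0) (hg : g ≠ 0) :
    v.ord (f / g) = v.ord f - v.ord g := by
  rw [div_eq_mul_inv, v.ord_mul hf (inv_ne_zero hg), v.ord_inv, sub_eq_add_neg]

end Ord

/-! ### Integral functions -/

/-- `y ∈ A((q))` is an *integral function* if its image in `Q̄((q))` lies in the function field
and its reduction lies in the function field in characteristic `ℓ` and is nonzero. -/
def IsIntegralFn (A : ValuationSubring (AlgebraicClosure ℚ)) (N : ℕ) (y : LaurentSeries A) : Prop :=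
  coeffMap A.subtype y ∈ modularFunctionFieldBar N ∧
    coeffMap (residue A) y ∈ modularFunctionFieldFullC (ResidueField A) N ∧
      coeffMap (residue A) y ≠ 0

/-- The function in characteristic zero defined by an integral function. -/
def liftF {y : LaurentSeries A} (h : IsIntegralFn A N y) : modularFunctionFieldBar N :=
  ⟨coeffMap A.subtype y, h.1⟩

/-- The reduction of an integral function. -/
def redF {y : LaurentSeries A} (h : IsIntegralFn A N y) :
    modularFunctionFieldFullC (ResidueField A) N :=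
  ⟨coeffMap (residue A) y, h.2.1⟩

theorem redF_ne_zero {y : LaurentSeries A} (h : IsIntegralFn A N y) : redF h ≠ 0 := fun h0 =>
  h.2.2 (congrArg Subtype.val h0)

theorem coeffMap_subtype_injective :
    Function.Injective (coeffMap A.subtype : LaurentSeries A → LaurentSeries (AlgebraicClosure ℚ)) := by
  intro x y hxy
  ext k
  have := congrArg (fun z => z.coeff k) hxy
  simpa using this

theorem liftF_ne_zero {y : LaurentSeries A} (h : IsIntegralFn A N y) : liftF h ≠ 0 := by
  intro h0
  have h1 : coeffMap A.subtype y = 0 := congrArg Subtype.val h0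
  have h2 : y = 0 := coeffMap_subtype_injective (by rw [h1, map_zero])
  exact h.2.2 (by rw [h2, map_zero])

theorem isIntegralFn_one : IsIntegralFn A N (1 : LaurentSeries A) :=
  ⟨by rw [map_one]; exact one_mem _, by rw [map_one]; exact one_mem _,
    by rw [map_one]; exact one_ne_zero⟩

theorem IsIntegralFn.mul {y y' : LaurentSeries A} (h : IsIntegralFn A N y)
    (h' : IsIntegralFn A N y') : IsIntegralFn A N (y * y') :=
  ⟨by rw [map_mul]; exact mul_mem h.1 h'.1, by rw [map_mul]; exact mul_mem h.2.1 h'.2.1,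
    by rw [map_mul]; exact mul_ne_zero h.2.2 h'.2.2⟩

@[simp] theorem liftF_one : liftF (isIntegralFn_one (A := A) (N := N)) = 1 :=
  Subtype.ext (map_one _)

@[simp] theorem redF_one : redF (isIntegralFn_one (A := A) (N := N)) = 1 :=
  Subtype.ext (map_one _)

theorem liftF_mul {y y' : LaurentSeries A} (h : IsIntegralFn A N y) (h' : IsIntegralFn A N y') :
    liftF (h.mul h') = liftF h * liftF h' :=
  Subtype.ext (map_mul _ _ _)

theorem redF_mul {y y' : LaurentSeries A} (h : IsIntegralFn A N y) (h' : IsIntegralFn A N y') :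
    redF (h.mul h') = redF h * redF h' :=
  Subtype.ext (map_mul _ _ _)

/-! ### The core statements -/

/-- **Core statement in `q`-expansion form.**  `U₁, U₂` integral functions such that
`div (U₁/U₂)` is divisible by `m` and the divisor of the reduction of `U₁/U₂` is `m` times a
principal divisor.  Then `U₁/U₂` is a constant times an `m`-th power. -/
def QCore (N : ℕ) (A : ValuationSubring (AlgebraicClosure ℚ)) (m : ℕ) : Prop :=
  ∀ (U₁ U₂ : LaurentSeries A) (h₁ : IsIntegralFn A N U₁) (h₂ : IsIntegralFn A N U₂),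
    (∀ v : Place (AlgebraicClosure ℚ) (modularFunctionFieldBar N),
      (m : ℤ) ∣ v.ord (liftF h₁) - v.ord (liftF h₂)) →
    (∃ g : modularFunctionFieldFullC (ResidueField A) N, g ≠ 0 ∧
      ∀ Q : Place (ResidueField A) (modularFunctionFieldFullC (ResidueField A) N),
        Q.ord (redF h₁) - Q.ord (redF h₂) = m * Q.ord g) →
    ∃ (c : AlgebraicClosure ℚ) (y : modularFunctionFieldBar N), c ≠ 0 ∧ y ≠ 0 ∧
      liftF h₁ = algebraMap (AlgebraicClosure ℚ) (modularFunctionFieldBar N) c * y ^ m * liftF h₂

/-- A function without zeros and poles is constant. -/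
def ConstOfOrdZero (K F : Type*) [Field K] [Field F] [Algebra K F] : Prop :=
  ∀ u : F, u ≠ 0 → (∀ v : Place K F, v.ord u = 0) → ∃ c : K, u = algebraMap K F c

/-- Function-level core statement. -/
def FunctionCore (N : ℕ) (A : ValuationSubring (AlgebraicClosure ℚ)) (m : ℕ) : Prop :=
  ∀ r : Place (AlgebraicClosure ℚ) (modularFunctionFieldBar N) →
      Place (ResidueField A) (modularFunctionFieldFullC (ResidueField A) N),
    IsPlaceReductionModL A N r → PrincipalGeneratedByIntegral A (residue A) N →
    ∀ (D : Divisor (AlgebraicClosure ℚ) (modularFunctionFieldBar N))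
      (f : modularFunctionFieldBar N) (g : modularFunctionFieldFullC (ResidueField A) N),
      f ≠ 0 → g ≠ 0 → (∀ v, (m • D) v = v.ord f) → (∀ Q, Finsupp.mapDomain r D Q = Q.ord g) →
      ∃ (c : AlgebraicClosure ℚ) (y : modularFunctionFieldBar N), c ≠ 0 ∧ y ≠ 0 ∧
        f = algebraMap (AlgebraicClosure ℚ) (modularFunctionFieldBar N) c * y ^ m

theorem divisorCore_of_functionCore {m : ℕ} (hm : m ≠ 0) (h : FunctionCore N A m) :
    DivisorCore N A m := by
  intro r hr hgen D _ hmD hrD
  obtain ⟨f, hf, hfD⟩ := hmD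
  obtain ⟨g, hg, hgD⟩ := hrD
  obtain ⟨c, y, hc, hy, hfy⟩ := h r hr hgen D f g hf hg hfD hgD
  refine ⟨y, hy, fun v => ?_⟩
  have h1 := hfD v
  have hcy : algebraMap (AlgebraicClosure ℚ) (modularFunctionFieldBar N) c ≠ 0 := by
    simpa using hc
  rw [hfy, v.ord_mul hcy (pow_ne_zero m hy), ord_algebraMap v hc, zero_add, ord_pow,
    Finsupp.smul_apply, nsmul_eq_mul] at h1
  exact mul_left_cancel₀ (Nat.cast_ne_zero.mpr hm) h1

/-! ### Using hypotheses (ii) and (iii) -/

theorem exists_integral_pair
    {r : Place (AlgebraicClosure ℚ) (modularFunctionFieldBar N) →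
      Place (ResidueField A) (modularFunctionFieldFullC (ResidueField A) N)}
    (hr : IsPlaceReductionModL A N r)
    {E : Divisor (AlgebraicClosure ℚ) (modularFunctionFieldBar N)}
    (hE : E ∈ AddSubgroup.closure (integralPrincipalDivisors A (residue A) N)) :
    ∃ (U₁ U₂ : LaurentSeries A) (h₁ : IsIntegralFn A N U₁) (h₂ : IsIntegralFn A N U₂),
      (∀ v, E v = v.ord (liftF h₁) - v.ord (liftF h₂)) ∧
      (∀ Q, Finsupp.mapDomain r E Q = Q.ord (redF h₁) - Q.ord (redF h₂)) := by
  induction hE using AddSubgroup.closure_induction with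
  | mem E hE =>
    obtain ⟨y, hy, hyk, hne, hDy⟩ := hE
    have hI : IsIntegralFn A N y := ⟨hy, hyk, hne⟩
    refine ⟨y, 1, hI, isIntegralFn_one, fun v => ?_, fun Q => ?_⟩
    · rw [liftF_one, Place.ord_one, sub_zero]
      exact hDy v
    · rw [redF_one, Place.ord_one, sub_zero]
      exact hr.2 y hy hyk hne E hDy Q
  | zero =>
    refine ⟨1, 1, isIntegralFn_one, isIntegralFn_one, fun v => ?_, fun Q => ?_⟩
    · simp
    · simp
  | add E E' _ _ hE hE' =>
    obtain ⟨U₁, U₂, h₁, h₂, hv, hQ⟩ := hE
    obtain ⟨U₁', U₂', h₁', h₂', hv', hQ'⟩ := hE'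
    refine ⟨U₁ * U₁', U₂ * U₂', h₁.mul h₁', h₂.mul h₂', fun v => ?_, fun Q => ?_⟩
    · rw [liftF_mul h₁ h₁', liftF_mul h₂ h₂', v.ord_mul (liftF_ne_zero h₁) (liftF_ne_zero h₁'),
        v.ord_mul (liftF_ne_zero h₂) (liftF_ne_zero h₂'), Finsupp.add_apply, hv v, hv' v]
      ring
    · rw [redF_mul h₁ h₁', redF_mul h₂ h₂', Q.ord_mul (redF_ne_zero h₁) (redF_ne_zero h₁'),
        Q.ord_mul (redF_ne_zero h₂) (redF_ne_zero h₂'), Finsupp.mapDomain_add,
        Finsupp.add_apply, hQ Q, hQ' Q]
      ring
  | neg E _ hE =>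
    obtain ⟨U₁, U₂, h₁, h₂, hv, hQ⟩ := hE
    refine ⟨U₂, U₁, h₂, h₁, fun v => ?_, fun Q => ?_⟩
    · rw [Finsupp.neg_apply, hv v]; ring
    · rw [← Finsupp.mapDomain.addMonoidHom_apply, map_neg, Finsupp.mapDomain.addMonoidHom_apply,
        Finsupp.neg_apply, hQ Q]
      ring

theorem functionCore_of_qCore {m : ℕ}
    (hconst : ConstOfOrdZero (AlgebraicClosure ℚ) (modularFunctionFieldBar N))
    (h : QCore N A m) : FunctionCore N A m := by
  intro r hr hgen D f g hf hg hfD hgD
  have hprin : (m • D) ∈ Divisor.principal (K := AlgebraicClosure ℚ)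
      (F := modularFunctionFieldBar N) := ⟨f, hf, hfD⟩
  obtain ⟨U₁, U₂, h₁, h₂, hv, hQ⟩ := exists_integral_pair hr (hgen hprin)
  have hdvd : ∀ v : Place (AlgebraicClosure ℚ) (modularFunctionFieldBar N),
      (m : ℤ) ∣ v.ord (liftF h₁) - v.ord (liftF h₂) := by
    intro v
    rw [← hv v, Finsupp.smul_apply, nsmul_eq_mul]
    exact dvd_mul_right _ _
  have hred : ∀ Q : Place (ResidueField A) (modularFunctionFieldFullC (ResidueField A) N),
      Q.ord (redF h₁) - Q.ord (redF h₂) = m * Q.ord g := by
    intro Q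
    rw [← hQ Q, ← hgD Q, Finsupp.mapDomain_smul, Finsupp.smul_apply, nsmul_eq_mul]
  obtain ⟨c, y, hc, hy, hU⟩ := h U₁ U₂ h₁ h₂ hdvd ⟨g, hg, hred⟩
  -- `f * U₂ / U₁` has trivial divisor
  have h1ne := liftF_ne_zero h₁
  have h2ne := liftF_ne_zero h₂
  have hu : ∀ v : Place (AlgebraicClosure ℚ) (modularFunctionFieldBar N),
      v.ord (f * liftF h₂ / liftF h₁) = 0 := by
    intro v
    rw [ord_div v (mul_ne_zero hf h2ne) h1ne, v.ord_mul hf h2ne, ← hfD v, hv v]
    ring
  obtain ⟨c', hc'⟩ := hconst _ (div_ne_zero (mul_ne_zero hf h2ne) h1ne) hu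
  have hc'0 : c' ≠ 0 := by
    rintro rfl
    rw [map_zero] at hc'
    exact div_ne_zero (mul_ne_zero hf h2ne) h1ne hc'
  refine ⟨c' * c, y, mul_ne_zero hc'0 hc, hy, ?_⟩
  have hf' : f = algebraMap (AlgebraicClosure ℚ) (modularFunctionFieldBar N) c' * liftF h₁ /
      liftF h₂ := by
    rw [← hc']
    field_simp
  rw [hf', hU, map_mul]
  field_simp

/-- **Top-level reduction**: the frozen statement S18 follows from `QCore` and the fact that
functions without zeros and poles are constant. -/
theorem result_of_qCore (N : ℕ) [NeZero N] {ℓ : ℕ}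
    (A : ValuationSubring (AlgebraicClosure ℚ))
    (h : ModularCurve.ReductionInputsModL A N) (m : ℕ) (hm : ¬ ℓ ∣ m)
    (hconst : ConstOfOrdZero (AlgebraicClosure ℚ) (modularFunctionFieldBar N))
    (hcore : QCore N A m)
    (z : ModularCurve.JZero N)
    (hmz : m • z = 0) (hz : ModularCurve.reductionModL A N z = 0) :
    z = 0 := by
  have hm0 : m ≠ 0 := by
    rintro rfl
    exact hm (dvd_zero ℓ)
  exact result_of_divisorCore N A h m
    (divisorCore_of_functionCore hm0 (functionCore_of_qCore hconst hcore)) z hmz hz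

end

end Fermat.Agent.S18.H94
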