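import Fermat.Statements.S18

/-!
# S18 (helper94): unfolding of the frozen statement

`result_of_divisorCore` : the frozen statement S18 follows from a statement about divisors
(`DivisorCore`), and `divisorCore_of_functionCore` reduces the latter to a statement about
functions (`FunctionCore`): a function `f` whose divisor is `m • D`, where the reduction of `D`
is principal, is a constant times an `m`-th power.
-/

set_option autoImplicit false
set_option synthInstance.maxHeartbeats 400000

open ModularCurve AlgebraicCurve HahnSeries IsLocalRing

namespace Fermat.Agent.S18.H94

noncomputable section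

/-- The ambient characteristic-zero function field. -/
abbrev FBar (N : ℕ) : Type := modularFunctionFieldBar N

/-- The residue field of the valuation ring. -/
abbrev kRes (A : ValuationSubring (AlgebraicClosure ℚ)) : Type := ResidueField A

/-- The characteristic-`ℓ` function field. -/
abbrev FRes (A : ValuationSubring (AlgebraicClosure ℚ)) (N : ℕ) : Type :=
  modularFunctionFieldFullC (kRes A) N

/-- Divisor-level core statement: for every place reduction `r` as in the hypothesis of S18,
a degree-zero divisor `D` with `m • D` principal and `r_* D` principal is principal. -/
def DivisorCore (N : ℕ) (A : ValuationSubring (AlgebraicClosure ℚ)) (m : ℕ) : Prop :=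
  ∀ r : Place (AlgebraicClosure ℚ) (modularFunctionFieldBar N) →
      Place (ResidueField A) (modularFunctionFieldFullC (ResidueField A) N),
    IsPlaceReductionModL A N r → PrincipalGeneratedByIntegral A (residue A) N →
    ∀ D : Divisor (AlgebraicClosure ℚ) (modularFunctionFieldBar N),
      Divisor.degree D = 0 → Divisor.IsPrincipal (m • D) →
      Divisor.IsPrincipal (Finsupp.mapDomain r D) → Divisor.IsPrincipal D

theorem result_of_divisorCore (N : ℕ) [NeZero N]
    (A : ValuationSubring (AlgebraicClosure ℚ))
    (h : ModularCurve.ReductionInputsModL A N) (m : ℕ) (hcore : DivisorCore N A m)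
    (z : ModularCurve.JZero N)
    (hmz : m • z = 0) (hz : ModularCurve.reductionModL A N z = 0) :
    z = 0 := by
  obtain ⟨D, rfl⟩ := Pic0.mk_surjective z
  have hr := isPlaceReductionModL_placeReductionModL h
  have hgen : PrincipalGeneratedByIntegral A (residue A) N := h.choose_spec.2
  -- `m • z = 0`
  have h1 : Divisor.IsPrincipal (m • (D : Divisor (AlgebraicClosure ℚ) (modularFunctionFieldBar N))) := by
    have : (m • D : Divisor.degZero (K := AlgebraicClosure ℚ) (F := modularFunctionFieldBar N)) ∈
        (Divisor.principal (K := AlgebraicClosure ℚ) (F := modularFunctionFieldBar N)).addSubgroupOf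
          (Divisor.degZero (K := AlgebraicClosure ℚ) (F := modularFunctionFieldBar N)) := by
      rw [← QuotientAddGroup.eq_zero_iff]
      exact hmz
    rw [AddSubgroup.mem_addSubgroupOf, AddSubgroupClass.coe_nsmul] at this
    exact this
  -- reduction
  have h2 : Divisor.IsPrincipal (Finsupp.mapDomain (placeReductionModL h)
      (D : Divisor (AlgebraicClosure ℚ) (modularFunctionFieldBar N))) := by
    rw [reductionModL_mk h D] at hz
    have : reductionDegZeroAlong (placeReductionModL h) hr.1 D ∈
        (Divisor.principal (K := ResidueField A)
            (F := modularFunctionFieldFullC (ResidueField A) N)).addSubgroupOf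
          (Divisor.degZero (K := ResidueField A)
            (F := modularFunctionFieldFullC (ResidueField A) N)) := by
      rw [← QuotientAddGroup.eq_zero_iff]
      exact hz
    rw [AddSubgroup.mem_addSubgroupOf, coe_reductionDegZeroAlong] at this
    exact this
  have h3 := hcore (placeReductionModL h) hr hgen D (Divisor.mem_degZero.mp D.2) h1 h2
  have : D ∈ (Divisor.principal (K := AlgebraicClosure ℚ) (F := modularFunctionFieldBar N)).addSubgroupOf
      (Divisor.degZero (K := AlgebraicClosure ℚ) (F := modularFunctionFieldBar N)) := by
    rw [AddSubgroup.mem_addSubgroupOf]
    exact h3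
  exact (QuotientAddGroup.eq_zero_iff _).mpr this

end

end Fermat.Agent.S18.H94
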